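import Fermat.Agent.S56.Euler.IndDefs

/-!
# Row S56 / wall W-BASE / Euler characteristic — leaf IND: FROZEN statements (helper366)

`IndStatement` (modular Artin induction): an additive `ℤ`-valued invariant of finite-dimensional
`𝔽_p[G]`-modules (`G` finite) which vanishes on all `𝔽_p[G/B] ⊗ N`, `B` cyclic of order prime to
`p`, vanishes identically.

    IND ⇐ KEY + PERM + ARTIN        KEY ⇐ COMP + UNIQ        UNIQ ⇐ TRIND + TRSS
    (glue: `Euler/IndGlue.lean`)

Leaves (all Mathlib-only, independent of each other):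
* `TraceIndepStatement` (TRIND): the trace functions `g ↦ tr(g | S_i)` of pairwise non-isomorphic
  simple modules are linearly independent over `𝔽_p`
  (Jacobson density `jacobson_density` + little Wedderburn + separability of finite fields).
* `TraceSSStatement` (TRSS): `tr(g | W) = tr(g_s | W)`, `g_s` the `p`-regular part of `g`.
* `CompSeriesStatement` (COMP): composition factors `T_1..T_n` of `W`: every additive invariant
  satisfies `f W = ∑ f T_j`, and `charpoly(g | W) = ∏ charpoly(g | T_j)`.
* `PermCharpolyStatement` (PERM): for permutations `σ_i` of finite sets and one operator `T`: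
  the (weighted) numbers of fixed points of all powers determine the (weighted) product of the
  characteristic polynomials of `σ_i ⊗ T` (cycle decomposition).
* `ArtinCountStatement` (ARTIN): Artin's formula on `p`-regular elements:
  `|G| = ∑_B a_B · |(G/B)^g|`, `B` cyclic of order prime to `p`, `a_B ∈ ℤ`.

Plan and proofs on paper: `coord/S56-EULER-helper366.md` §2.  Nothing unproved in this file.
-/

set_option autoImplicit false

open Polynomial

noncomputable section

namespace Fermat.Agent.S56.Euler

/-- (IND) modular Artin induction for additive invariants. -/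
def IndStatement : Prop :=
  ∀ (p : ℕ) [Fact p.Prime] (G : Type) [Group G] [Finite G] (f : RepInv (ZMod p) G),
    IsAdditiveInv f →
    (∀ B : Subgroup G, IsCyclic B → ¬ p ∣ Nat.card B →
      ∀ N : FDRepData (ZMod p) G, f (permData B N) = 0) →
    ∀ N : FDRepData (ZMod p) G, f N = 0

/-- (TRIND) linear independence of the traces of pairwise non-isomorphic simple modules. -/
def TraceIndepStatement : Prop :=
  ∀ (p : ℕ) [Fact p.Prime] (G : Type) [Group G] [Finite G] (ι : Type) [Fintype ι]
    (S : ι → FDRepData (ZMod p) G),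
    (∀ i, IsSimpleRep (S i)) → (∀ i j, RepIso (S i) (S j) → i = j) →
    ∀ a : ι → ZMod p,
      (∀ g : G, ∑ i, a i * LinearMap.trace (ZMod p) (S i).V ((S i).ρ g) = 0) →
      ∀ i, a i = 0

/-- (TRSS) the trace of `g` is the trace of a `p`-regular element (a power of `g`). -/
def TraceSSStatement : Prop :=
  ∀ (p : ℕ) [Fact p.Prime] (G : Type) [Group G] [Finite G] (g : G),
    ∃ h : G, IsPRegular p h ∧ ∀ W : FDRepData (ZMod p) G,
      LinearMap.trace (ZMod p) W.V (W.ρ g) = LinearMap.trace (ZMod p) W.V (W.ρ h)

/-- (COMP) composition factors. -/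
def CompSeriesStatement : Prop :=
  ∀ (k : Type) [Field k] (G : Type) [Group G] (W : FDRepData k G),
    ∃ (n : ℕ) (T : Fin n → FDRepData k G), (∀ j, IsSimpleRep (T j)) ∧
      (∀ f : RepInv k G, IsAdditiveInv f → f W = ∑ j, f (T j)) ∧
      (∀ g : G, LinearMap.charpoly (W.ρ g) = ∏ j, LinearMap.charpoly ((T j).ρ g))

/-- (UNIQ) multiplicative independence of the characteristic polynomials on `p`-regular elements
(= uniqueness of composition multiplicities = independence of Brauer characters). -/
def UniqStatement : Prop :=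
  ∀ (p : ℕ) [Fact p.Prime] (G : Type) [Group G] [Finite G] (ι : Type) [Fintype ι]
    (S : ι → FDRepData (ZMod p) G),
    (∀ i, IsSimpleRep (S i)) → (∀ i j, RepIso (S i) (S j) → i = j) →
    ∀ m m' : ι → ℕ,
      (∀ g : G, IsPRegular p g →
        ∏ i, LinearMap.charpoly ((S i).ρ g) ^ m i = ∏ i, LinearMap.charpoly ((S i).ρ g) ^ m' i) →
      m = m'

/-- (KEY) additive invariants only see the characteristic polynomials of `p`-regular elements
(weighted form). -/
def KeyStatement : Prop :=
  ∀ (p : ℕ) [Fact p.Prime] (G : Type) [Group G] [Finite G] (I : Type) [Fintype I]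
    (W : I → FDRepData (ZMod p) G) (n n' : I → ℕ),
    (∀ g : G, IsPRegular p g →
      ∏ i, LinearMap.charpoly ((W i).ρ g) ^ n i = ∏ i, LinearMap.charpoly ((W i).ρ g) ^ n' i) →
    ∀ f : RepInv (ZMod p) G, IsAdditiveInv f →
      ∑ i, (n i : ℤ) * f (W i) = ∑ i, (n' i : ℤ) * f (W i)

/-- (PERM) characteristic polynomials of `σ ⊗ T` from fixed-point counts. -/
def PermCharpolyStatement : Prop :=
  ∀ (k : Type) [Field k] (N : Type) [AddCommGroup N] [Module k N] [Module.Finite k N]
    (T : N →ₗ[k] N) (I : Type) [Fintype I] (X : I → Type) [∀ i, Fintype (X i)]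
    (σ : ∀ i, Equiv.Perm (X i)) (n n' : I → ℕ),
    (∀ t : ℕ, ∑ i, n i * Nat.card {x : X i // (σ i ^ t) x = x} =
      ∑ i, n' i * Nat.card {x : X i // (σ i ^ t) x = x}) →
    ∏ i, LinearMap.charpoly (permTensor (⇑(σ i)) T) ^ n i =
      ∏ i, LinearMap.charpoly (permTensor (⇑(σ i)) T) ^ n' i

/-- (ARTIN) Artin's counting formula on `p`-regular elements. -/
def ArtinCountStatement : Prop :=
  ∀ (p : ℕ) [Fact p.Prime] (G : Type) [Group G] [Finite G],
    ∃ (s : Finset (Subgroup G)) (a : Subgroup G → ℤ),
      (∀ B ∈ s, IsCyclic B ∧ ¬ p ∣ Nat.card B) ∧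
      ∀ g : G, IsPRegular p g →
        ∑ B ∈ s, a B * (Nat.card {x : G ⧸ B // g • x = x} : ℤ) = (Nat.card G : ℤ)

end Fermat.Agent.S56.Euler

end
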