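import Fermat.Agent.S56.Euler.IndSpec

/-!
# Row S56 / Euler characteristic / leaf ARTIN (helper512)

`artinCount : ArtinCountStatement` — Artin's counting formula on `p`-regular elements:
for a finite group `G` there are integers `a_B`, `B` running over the cyclic subgroups of order
prime to `p`, with `∑_B a_B · |(G/B)^g| = |G|` for every `p`-regular `g`.

Proof.  `φ_B(g) = #{x : x⁻¹ g x ∈ B} = |B| · |(G/B)^g|`, `ν_C(g) = #{x : ⟨x⁻¹ g x⟩ = C}`;
`φ_C = ∑_{C' ≤ C} ν_{C'}`, so by induction on `C` every `ν_C` (`C` cyclic of order prime to `p`)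
is a `ℤ`-combination of the `φ_B`; finally `∑_C ν_C(g) = |G|` for `p`-regular `g`.
Mathlib only.
-/

set_option autoImplicit false

open Subgroup

namespace Fermat.Agent.S56.Euler.H512

variable {G : Type} [Group G]

/-- The conjugate `x⁻¹ g x`. -/
def cj (g x : G) : G := x⁻¹ * g * x

lemma orderOf_cj (g x : G) : orderOf (cj g x) = orderOf g := by
  have h := (MulAut.conj x⁻¹).orderOf_eq g
  rw [MulAut.conj_apply, inv_inv] at h
  exact h

/-- `φ_B(g) = #{x : x⁻¹ g x ∈ B}`. -/
noncomputable def phi (B : Subgroup G) (g : G) : ℤ :=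
  (Nat.card {x : G // cj g x ∈ B} : ℤ)

/-- `ν_C(g) = #{x : ⟨x⁻¹ g x⟩ = C}`. -/
noncomputable def nu (C : Subgroup G) (g : G) : ℤ :=
  (Nat.card {x : G // zpowers (cj g x) = C} : ℤ)

/-- `#{x : x⁻¹ g x ∈ B} = |B| · |(G/B)^g|`. -/
lemma card_cj_mem (B : Subgroup G) (g : G) :
    Nat.card {x : G // cj g x ∈ B} = Nat.card B * Nat.card {q : G ⧸ B // g • q = q} := by
  rw [← Nat.card_prod]
  have hset : {x : G | cj g x ∈ B} =
      (QuotientGroup.mk : G → G ⧸ B) ⁻¹' {q : G ⧸ B | g • q = q} := by
    ext x
    simp only [Set.mem_ofPred_eq, Set.mem_preimage]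
    rw [MulAction.Quotient.smul_mk, eq_comm, QuotientGroup.eq, smul_eq_mul, cj, mul_assoc]
  have e := QuotientGroup.preimageMkEquivSubgroupProdSet B {q : G ⧸ B | g • q = q}
  rw [← hset] at e
  exact Nat.card_congr e

lemma phi_eq (B : Subgroup G) (g : G) :
    phi B g = (Nat.card B : ℤ) * (Nat.card {q : G ⧸ B // g • q = q} : ℤ) := by
  rw [phi, card_cj_mem, Nat.cast_mul]

/-- `ν_C(g) = 0` unless `C` is cyclic of the same order as `g`. -/
lemma nu_eq_zero_of_card_ne (C : Subgroup G) (g : G) (h : Nat.card C ≠ orderOf g) :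
    nu C g = 0 := by
  rw [nu, Nat.cast_eq_zero]
  have : IsEmpty {x : G // zpowers (cj g x) = C} := by
    refine ⟨fun ⟨x, hx⟩ => h ?_⟩
    rw [← hx, Nat.card_zpowers, orderOf_cj]
  exact Nat.card_of_isEmpty

lemma nu_eq_zero_of_not_isCyclic (C : Subgroup G) (g : G) (h : ¬ IsCyclic C) :
    nu C g = 0 := by
  rw [nu, Nat.cast_eq_zero]
  have : IsEmpty {x : G // zpowers (cj g x) = C} := by
    refine ⟨fun ⟨x, hx⟩ => h ?_⟩
    rw [← hx]
    infer_instance
  exact Nat.card_of_isEmpty

/-- The cyclic subgroups of order prime to `p`. -/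
def Good (p : ℕ) (B : Subgroup G) : Prop := IsCyclic B ∧ ¬ p ∣ Nat.card B

lemma good_of_le {p : ℕ} {B C : Subgroup G} (h : B ≤ C) (hC : Good p C) : Good p B := by
  obtain ⟨hc, hp⟩ := hC
  exact ⟨isCyclic_of_le h, fun hd => hp (hd.trans (card_dvd_of_le h))⟩

section Finite

variable [Finite G]

open Classical in
/-- `φ_C = ∑_{C' ≤ C} ν_{C'}`. -/
lemma phi_eq_sum_nu [Fintype (Subgroup G)] (C : Subgroup G) (g : G) :
    phi C g = ∑ C' ∈ Finset.univ.filter (fun C' : Subgroup G => C' ≤ C), nu C' g := by
  have : Fintype G := Fintype.ofFinite G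
  have h1 : Nat.card {x : G // cj g x ∈ C} =
      (Finset.univ.filter (fun x : G => cj g x ∈ C)).card := by
    rw [Nat.card_eq_fintype_card, Fintype.card_subtype]
  have h2 : ∀ C' : Subgroup G, Nat.card {x : G // zpowers (cj g x) = C'} =
      (Finset.univ.filter (fun x : G => zpowers (cj g x) = C')).card := by
    intro C'
    rw [Nat.card_eq_fintype_card, Fintype.card_subtype]
  have h3 := Finset.card_eq_sum_card_fiberwise (f := fun x : G => zpowers (cj g x))
    (s := Finset.univ.filter (fun x : G => cj g x ∈ C))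
    (t := Finset.univ.filter (fun C' : Subgroup G => C' ≤ C))
    (by
      intro x hx
      simp only [Finset.coe_filter, Finset.mem_univ, true_and, Set.mem_ofPred_eq] at hx ⊢
      exact zpowers_le.mpr hx)
  simp only [phi, nu, h1, h2]
  rw [h3, Nat.cast_sum]
  refine Finset.sum_congr rfl fun C' hC' => ?_
  congr 2
  ext x
  simp only [Finset.mem_filter, Finset.mem_univ, true_and] at hC' ⊢
  constructor
  · rintro ⟨-, h⟩
    exact h
  · intro h
    refine ⟨?_, h⟩
    have : zpowers (cj g x) ≤ C := h ▸ hC'
    exact zpowers_le.mp this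

open Classical in
/-- `∑_C ν_C(g) = |G|`. -/
lemma sum_nu [Fintype (Subgroup G)] (g : G) :
    ∑ C : Subgroup G, nu C g = (Nat.card G : ℤ) := by
  have : Fintype G := Fintype.ofFinite G
  have h2 : ∀ C' : Subgroup G, Nat.card {x : G // zpowers (cj g x) = C'} =
      (Finset.univ.filter (fun x : G => zpowers (cj g x) = C')).card := by
    intro C'
    rw [Nat.card_eq_fintype_card, Fintype.card_subtype]
  have h3 := Finset.card_eq_sum_card_fiberwise (f := fun x : G => zpowers (cj g x))
    (s := (Finset.univ : Finset G)) (t := (Finset.univ : Finset (Subgroup G)))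
    (by intro x _; simp)
  simp only [nu, h2]
  rw [← Nat.cast_sum, ← h3, Nat.card_eq_fintype_card, Finset.card_univ]

open Classical in
/-- Every `ν_C`, `C` good, is a `ℤ`-combination of the `φ_B`, `B` good. -/
lemma nu_mem_span (p : ℕ) (C : Subgroup G) (hC : Good p C) :
    (nu C : G → ℤ) ∈ Submodule.span ℤ
      (Set.range fun B : {B : Subgroup G // Good p B} => (phi B.1 : G → ℤ)) := by
  have : Fintype (Subgroup G) := Fintype.ofFinite _
  induction C using WellFoundedLT.induction with
  | _ C ih =>
    have hphi : (phi C : G → ℤ) ∈ Submodule.span ℤ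
        (Set.range fun B : {B : Subgroup G // Good p B} => (phi B.1 : G → ℤ)) :=
      Submodule.subset_span ⟨⟨C, hC⟩, rfl⟩
    have hsum : (nu C : G → ℤ) = phi C -
        ∑ C' ∈ Finset.univ.filter (fun C' : Subgroup G => C' < C), (nu C' : G → ℤ) := by
      funext g
      rw [Pi.sub_apply, Finset.sum_apply, phi_eq_sum_nu C g]
      have hsplit : Finset.univ.filter (fun C' : Subgroup G => C' ≤ C) =
          insert C (Finset.univ.filter (fun C' : Subgroup G => C' < C)) := by
        ext C'
        simp only [Finset.mem_filter, Finset.mem_univ, true_and, Finset.mem_insert]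
        constructor
        · intro h
          rcases h.eq_or_lt with h | h
          · exact Or.inl h
          · exact Or.inr h
        · rintro (h | h)
          · exact h.le
          · exact h.le
      rw [hsplit, Finset.sum_insert (by simp)]
      ring
    rw [hsum]
    refine Submodule.sub_mem _ hphi (Submodule.sum_mem _ fun C' hC' => ?_)
    simp only [Finset.mem_filter, Finset.mem_univ, true_and] at hC'
    exact ih C' hC' (good_of_le hC'.le hC)

end Finite

open Classical in
/-- **Artin's counting formula** on `p`-regular elements. -/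
theorem artinCount : ArtinCountStatement := by
  intro p _ G _ _
  have : Fintype (Subgroup G) := Fintype.ofFinite _
  have : Fintype {B : Subgroup G // Good p B} := Fintype.ofFinite _
  -- the total `∑_{C good} ν_C` is a combination of the `φ_B`
  have hT : (∑ C : {B : Subgroup G // Good p B}, (nu C.1 : G → ℤ)) ∈ Submodule.span ℤ
      (Set.range fun B : {B : Subgroup G // Good p B} => (phi B.1 : G → ℤ)) :=
    Submodule.sum_mem _ fun C _ => nu_mem_span p C.1 C.2
  obtain ⟨c, hc⟩ := (Submodule.mem_span_range_iff_exists_fun ℤ).mp hT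
  refine ⟨Finset.univ.filter (fun B : Subgroup G => Good p B),
    fun B => if h : Good p B then c ⟨B, h⟩ * (Nat.card B : ℤ) else 0, ?_, ?_⟩
  · intro B hB
    simp only [Finset.mem_filter, Finset.mem_univ, true_and] at hB
    exact hB
  · intro g hg
    have hval := congrFun hc g
    rw [Finset.sum_apply, Finset.sum_apply] at hval
    -- right-hand side: `∑_{C good} ν_C(g) = |G|`
    have hR : ∑ C : {B : Subgroup G // Good p B}, nu C.1 g = (Nat.card G : ℤ) := by
      rw [← sum_nu g]
      rw [← Finset.sum_subtype (p := Good p)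
        (Finset.univ.filter (fun B : Subgroup G => Good p B)) (by simp) (fun C => nu C g)]
      rw [Finset.sum_filter]
      refine Finset.sum_congr rfl fun C _ => ?_
      split_ifs with h
      · rfl
      · by_cases hcyc : IsCyclic C
        · refine (nu_eq_zero_of_card_ne C g ?_).symm
          intro hcard
          exact h ⟨hcyc, by rw [hcard]; exact hg⟩
        · exact (nu_eq_zero_of_not_isCyclic C g hcyc).symm
    rw [← hR, ← hval]
    rw [Finset.sum_subtype (p := Good p) (Finset.univ.filter (fun B : Subgroup G => Good p B))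
      (by simp) (fun B => (if h : Good p B then c ⟨B, h⟩ * (Nat.card B : ℤ) else 0) *
        (Nat.card {x : G ⧸ B // g • x = x} : ℤ))]
    refine Finset.sum_congr rfl fun B _ => ?_
    rw [dif_pos B.2, Pi.smul_apply, smul_eq_mul, phi_eq, mul_assoc]

end Fermat.Agent.S56.Euler.H512
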