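/-
S56 / W-BASE / Euler characteristic, leaf EUL-IND:COMP (helper486): composition factors.
`compSeries : CompSeriesStatement` (verbatim target of `Euler/IndSpec.lean`), Mathlib-only
(uses the multiplicativity of the characteristic polynomial along an invariant submodule from
`S56/H486/T4Charpoly.lean`).
-/
import Fermat.Agent.S56.Euler.IndSpec
import Fermat.Agent.S56.H486.T4Charpoly

set_option autoImplicit false

noncomputable section

namespace Fermat.Agent.S56.Euler.H486

open Fermat.Agent.S56.Euler

variable {k G : Type} [Field k] [Group G]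

/-- The sub-representation on an invariant submodule, bundled. -/
def subData (W : FDRepData k G) (S : Submodule k W.V) (hS : ∀ g, S ≤ S.comap (W.ρ g)) :
    FDRepData k G where
  V := S
  ρ := W.ρ.subrepresentation S hS

/-- The quotient representation by an invariant submodule, bundled. -/
def quotData (W : FDRepData k G) (S : Submodule k W.V) (hS : ∀ g, S ≤ S.comap (W.ρ g)) :
    FDRepData k G where
  V := W.V ⧸ S
  ρ := W.ρ.quotient S hS

lemma isShortExact_sub_quot (W : FDRepData k G) (S : Submodule k W.V)
    (hS : ∀ g, S ≤ S.comap (W.ρ g)) :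
    IsShortExact (subData W S hS) W (quotData W S hS) S.subtype S.mkQ where
  equivar_i := fun _ _ => rfl
  equivar_q := fun _ _ => rfl
  inj := Subtype.val_injective
  surj := Submodule.mkQ_surjective S
  exact := (Submodule.range_subtype S).trans (Submodule.ker_mkQ S).symm

lemma charpoly_sub_quot (W : FDRepData k G) (S : Submodule k W.V)
    (hS : ∀ g, S ≤ S.comap (W.ρ g)) (g : G) :
    LinearMap.charpoly (W.ρ g) =
      LinearMap.charpoly ((subData W S hS).ρ g) * LinearMap.charpoly ((quotData W S hS).ρ g) :=
  Fermat.Agent.S56.H486.t4_charpoly_eq_restrict_mul_mapQ S (W.ρ g) (hS g)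

/-- An additive invariant vanishes on the zero representation. -/
lemma additive_zero (W : FDRepData k G) [Subsingleton W.V] (f : RepInv k G)
    (hf : IsAdditiveInv f) : f W = 0 := by
  have h : IsShortExact W W W (LinearMap.id) (LinearMap.id) :=
    { equivar_i := fun _ _ => rfl
      equivar_q := fun _ _ => rfl
      inj := Function.injective_id
      surj := Function.surjective_id
      exact := Subsingleton.elim _ _ }
  have := hf W W W _ _ h
  omega

/-- Induction engine for `compSeries` (strong induction on the dimension). -/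
theorem compSeries_aux (k : Type) [Field k] (G : Type) [Group G] (d : ℕ) :
    ∀ W : FDRepData k G, Module.finrank k W.V = d →
    ∃ (n : ℕ) (T : Fin n → FDRepData k G), (∀ j, IsSimpleRep (T j)) ∧
      (∀ f : RepInv k G, IsAdditiveInv f → f W = ∑ j, f (T j)) ∧
      (∀ g : G, LinearMap.charpoly (W.ρ g) = ∏ j, LinearMap.charpoly ((T j).ρ g)) := by
  induction d using Nat.strong_induction_on with
  | _ d ih =>
  intro W hd
  by_cases h0 : Subsingleton W.V
  · -- the zero representation: no factors
    refine ⟨0, Fin.elim0, fun j => j.elim0, fun f hf => ?_, fun g => ?_⟩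
    · rw [additive_zero W f hf, Finset.univ_eq_empty, Finset.sum_empty]
    · rw [Finset.univ_eq_empty, Finset.prod_empty]
      exact Fermat.Agent.S56.H486.t4_charpoly_of_subsingleton (W.ρ g)
  have hnt : Nontrivial W.V := not_subsingleton_iff_nontrivial.mp h0
  by_cases hs : IsSimpleRep W
  · -- a simple representation: one factor
    refine ⟨1, fun _ => W, fun _ => hs, fun f _ => ?_, fun g => ?_⟩
    · rw [Fin.sum_univ_one]
    · rw [Fin.prod_univ_one]
  -- otherwise there is a proper nonzero invariant submodule
  have hex : ∃ S : Submodule k W.V, (∀ g, ∀ w ∈ S, W.ρ g w ∈ S) ∧ S ≠ ⊥ ∧ S ≠ ⊤ := by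
    by_contra hne
    apply hs
    refine ⟨hnt, fun S hS => ?_⟩
    by_contra hc
    rw [not_or] at hc
    exact hne ⟨S, hS, hc.1, hc.2⟩
  obtain ⟨S, hS', hbot, htop⟩ := hex
  have hS : ∀ g, S ≤ S.comap (W.ρ g) := fun g w hw => hS' g w hw
  have hlt1 : Module.finrank k (subData W S hS).V < d := by
    rw [← hd]
    exact Submodule.finrank_lt htop
  have hlt2 : Module.finrank k (quotData W S hS).V < d := by
    rw [← hd]
    have h1 : Module.finrank k (W.V ⧸ S) + Module.finrank k S = Module.finrank k W.V :=
      Submodule.finrank_quotient_add_finrank S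
    have h2 : 0 < Module.finrank k S := by
      rw [Module.finrank_pos_iff]
      exact Submodule.nontrivial_iff_ne_bot.mpr hbot
    change Module.finrank k (W.V ⧸ S) < Module.finrank k W.V
    omega
  obtain ⟨n₁, T₁, hT₁, hf₁, hc₁⟩ := ih _ hlt1 (subData W S hS) rfl
  obtain ⟨n₂, T₂, hT₂, hf₂, hc₂⟩ := ih _ hlt2 (quotData W S hS) rfl
  refine ⟨n₁ + n₂, Fin.append T₁ T₂, fun j => ?_, fun f hf => ?_, fun g => ?_⟩
  · refine Fin.addCases (fun i => ?_) (fun i => ?_) j
    · rw [Fin.append_left]
      exact hT₁ i
    · rw [Fin.append_right]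
      exact hT₂ i
  · rw [hf _ _ _ _ _ (isShortExact_sub_quot W S hS), hf₁ f hf, hf₂ f hf, Fin.sum_univ_add]
    congr 1
    · exact Finset.sum_congr rfl (fun i _ => by rw [Fin.append_left])
    · exact Finset.sum_congr rfl (fun i _ => by rw [Fin.append_right])
  · rw [charpoly_sub_quot W S hS g, hc₁ g, hc₂ g, Fin.prod_univ_add]
    congr 1
    · exact Finset.prod_congr rfl (fun i _ => by rw [Fin.append_left])
    · exact Finset.prod_congr rfl (fun i _ => by rw [Fin.append_right])

/-- **EUL-IND:COMP.** Composition factors of a finite-dimensional representation. -/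
theorem compSeries : CompSeriesStatement :=
  fun k _ G _ W => compSeries_aux k G _ W rfl

end Fermat.Agent.S56.Euler.H486

end
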