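import Fermat.Agent.S56.Euler.IndSpec

/-!
# Row S56 / Euler characteristic / leaf IND — PERM (helper635)

`permCharpoly : PermCharpolyStatement`.

For a permutation `σ` of a finite set `X`, `charpoly (σ ⊗ T) = ∏_l P_l ^ (c_σ(l) / l)` where
`c_σ(l)` is the number of points of exact period `l` and `P_l` is the characteristic polynomial of
`(standard l-cycle) ⊗ T`; and `#Fix(σ^t) = ∑_{l ∣ t} c_σ(l)`.
-/

set_option autoImplicit false

open Polynomial

noncomputable section

namespace Fermat.Agent.S56.Euler.H635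

open Fermat.Agent.S56.Euler

section Alg

variable {k : Type} [Field k] {N : Type} [AddCommGroup N] [Module k N] [Module.Finite k N]
  (T : N →ₗ[k] N)

/-- Multiplicativity of `charpoly (σ ⊗ T)` over a `σ`-stable decomposition `X ≃ A ⊕ B`. -/
theorem charpoly_permTensor_sum {A B X : Type} [Finite A] [Finite B] [Finite X]
    (e : A ⊕ B ≃ X) (α : A → A) (β : B → B) (σ : X → X)
    (hα : ∀ a, σ (e (Sum.inl a)) = e (Sum.inl (α a)))
    (hβ : ∀ b, σ (e (Sum.inr b)) = e (Sum.inr (β b))) :
    LinearMap.charpoly (permTensor σ T) =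
      LinearMap.charpoly (permTensor α T) * LinearMap.charpoly (permTensor β T) := by
  classical
  let E : (X →₀ N) ≃ₗ[k] (A →₀ N) × (B →₀ N) :=
    (Finsupp.domLCongr e.symm) ≪≫ₗ (Finsupp.sumFinsuppLEquivProdFinsupp k)
  have hE_inl : ∀ (a : A) (n : N), E (Finsupp.single (e (Sum.inl a)) n) =
      (Finsupp.single a n, 0) := by
    intro a n
    simp [E, Finsupp.sumFinsuppLEquivProdFinsupp,
      Finsupp.sumFinsuppAddEquivProdFinsupp, Finsupp.sumFinsuppEquivProdFinsupp]
  have hE_inr : ∀ (b : B) (n : N), E (Finsupp.single (e (Sum.inr b)) n) =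
      (0, Finsupp.single b n) := by
    intro b n
    simp [E, Finsupp.sumFinsuppLEquivProdFinsupp,
      Finsupp.sumFinsuppAddEquivProdFinsupp, Finsupp.sumFinsuppEquivProdFinsupp]
  have hcomm : (E : (X →₀ N) →ₗ[k] _) ∘ₗ permTensor σ T =
      ((permTensor α T).prodMap (permTensor β T)) ∘ₗ (E : (X →₀ N) →ₗ[k] _) := by
    apply Finsupp.lhom_ext
    intro x n
    obtain ⟨y, rfl⟩ := e.surjective x
    rcases y with a | b
    · simp only [LinearMap.comp_apply, LinearEquiv.coe_coe, permTensor_single, hα, hE_inl,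
        LinearMap.prodMap_apply, map_zero]
    · simp only [LinearMap.comp_apply, LinearEquiv.coe_coe, permTensor_single, hβ, hE_inr,
        LinearMap.prodMap_apply, map_zero]
  have hconj : E.conj (permTensor σ T) = (permTensor α T).prodMap (permTensor β T) := by
    apply LinearMap.ext
    intro z
    have h1 := LinearMap.congr_fun hcomm (E.symm z)
    simp only [LinearMap.comp_apply, LinearEquiv.coe_coe, LinearEquiv.apply_symm_apply] at h1
    rw [LinearEquiv.conj_apply]
    simpa using h1
  rw [← LinearEquiv.charpoly_conj E (permTensor σ T), hconj, LinearMap.charpoly_prodMap]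

/-- `charpoly (σ ⊗ T) = 1` on the empty set. -/
theorem charpoly_permTensor_empty {X : Type} [Finite X] [IsEmpty X] (σ : X → X) :
    LinearMap.charpoly (permTensor σ T) = 1 := by
  have h0 : Module.finrank k (X →₀ N) = 0 := Module.finrank_zero_of_subsingleton
  apply Polynomial.eq_one_of_monic_natDegree_zero (LinearMap.charpoly_monic _)
  rw [LinearMap.charpoly_natDegree, h0]

end Alg

/-! ## Periods -/

section Comb

/-- An injective semiconjugacy preserves minimal periods. -/
theorem minimalPeriod_of_semiconj {A X : Type} (g : A → X) (hg : Function.Injective g)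
    (α : A → A) (σ : X → X) (h : ∀ a, σ (g a) = g (α a)) (a : A) :
    Function.minimalPeriod σ (g a) = Function.minimalPeriod α a := by
  have hit : ∀ n : ℕ, σ^[n] (g a) = g (α^[n] a) := by
    intro n
    induction n with
    | zero => rfl
    | succ n ih => rw [Function.iterate_succ_apply', Function.iterate_succ_apply', ih, h]
  refine Function.minimalPeriod_eq_minimalPeriod_iff.2 (fun n => ?_)
  show σ^[n] (g a) = g a ↔ α^[n] a = a
  rw [hit n]
  exact hg.eq_iff

/-- The number of points of exact period `l`. -/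
def cnt {X : Type} [Fintype X] (σ : X → X) (l : ℕ) : ℕ :=
  ∑ x : X, if Function.minimalPeriod σ x = l then 1 else 0

/-- `cnt` is additive over a stable decomposition. -/
theorem cnt_sum {A B X : Type} [Fintype A] [Fintype B] [Fintype X]
    (e : A ⊕ B ≃ X) (α : A → A) (β : B → B) (σ : X → X)
    (hα : ∀ a, σ (e (Sum.inl a)) = e (Sum.inl (α a)))
    (hβ : ∀ b, σ (e (Sum.inr b)) = e (Sum.inr (β b))) (l : ℕ) :
    cnt σ l = cnt α l + cnt β l := by
  unfold cnt
  rw [← Equiv.sum_comp e, Fintype.sum_sum_type]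
  congr 1
  · refine Finset.sum_congr rfl (fun a _ => ?_)
    rw [minimalPeriod_of_semiconj (fun a => e (Sum.inl a))
      (fun a b hab => Sum.inl_injective (e.injective hab)) α σ hα a]
  · refine Finset.sum_congr rfl (fun b _ => ?_)
    rw [minimalPeriod_of_semiconj (fun b => e (Sum.inr b))
      (fun a b hab => Sum.inr_injective (e.injective hab)) β σ hβ b]

/-- The standard cycle on `Fin l`. -/
def stdCyc (l : ℕ) : Fin l → Fin l :=
  fun j => if h : j.val + 1 < l then ⟨j.val + 1, h⟩ else ⟨0, j.pos⟩

/-- Splitting off the orbit of a point. -/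
theorem exists_split {X : Type} [Fintype X] (σ : X → X) (hσ : Function.Injective σ) (x₀ : X) :
    ∃ (l : ℕ) (B : Type) (_ : Fintype B) (β : B → B) (e : Fin l ⊕ B ≃ X),
      Function.Injective β ∧
      Fintype.card B + l = Fintype.card X ∧
      0 < l ∧
      (∀ a, σ (e (Sum.inl a)) = e (Sum.inl (stdCyc l a))) ∧
      (∀ b, σ (e (Sum.inr b)) = e (Sum.inr (β b))) ∧
      (∀ a, Function.minimalPeriod σ (e (Sum.inl a)) = l) := by
  classical
  obtain ⟨l, hl⟩ : ∃ l, l = Function.minimalPeriod σ x₀ := ⟨_, rfl⟩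
  have hper : x₀ ∈ Function.periodicPts σ := hσ.mem_periodicPts x₀
  have hlpos : 0 < l := hl ▸ Function.minimalPeriod_pos_of_mem_periodicPts hper
  have hitl : σ^[l] x₀ = x₀ := hl ▸ Function.iterate_minimalPeriod
  let f : Fin l → X := fun j => σ^[j.val] x₀
  have hf : Function.Injective f := by
    intro a b hab
    apply Fin.ext
    exact Function.iterate_injOn_Iio_minimalPeriod (f := σ) (x := x₀)
      (Set.mem_Iio.2 (hl ▸ a.isLt)) (Set.mem_Iio.2 (hl ▸ b.isLt)) hab
  have hstep : ∀ a : Fin l, σ (f a) = f (stdCyc l a) := by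
    intro a
    show σ (σ^[a.val] x₀) = σ^[(stdCyc l a).val] x₀
    rw [← Function.iterate_succ_apply' σ a.val x₀]
    unfold stdCyc
    by_cases h : a.val + 1 < l
    · rw [dif_pos h]
    · rw [dif_neg h]
      have h1 : a.val + 1 = l := le_antisymm a.isLt (not_lt.1 h)
      show σ^[a.val + 1] x₀ = σ^[0] x₀
      rw [h1]
      exact hitl
  have hcompl : ∀ x : X, x ∉ Set.range f → σ x ∉ Set.range f := by
    rintro x hx ⟨j, hj⟩
    apply hx
    have hj' : σ^[j.val] x₀ = σ x := hj
    rcases Nat.eq_zero_or_pos j.val with h0 | hpos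
    · have h1 : σ (σ^[l - 1] x₀) = σ x := by
        rw [← Function.iterate_succ_apply' σ (l - 1) x₀, Nat.succ_eq_add_one,
          Nat.sub_add_cancel hlpos, ← hj', h0]
        exact hitl
      exact ⟨⟨l - 1, Nat.sub_lt hlpos Nat.one_pos⟩, hσ h1⟩
    · have h1 : σ (σ^[j.val - 1] x₀) = σ x := by
        rw [← Function.iterate_succ_apply' σ (j.val - 1) x₀, Nat.succ_eq_add_one,
          Nat.sub_add_cancel hpos, hj']
      exact ⟨⟨j.val - 1, lt_of_le_of_lt (Nat.sub_le _ _) j.isLt⟩, hσ h1⟩
  let B : Type := ↥((Set.range f)ᶜ : Set X)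
  let β : B → B := fun b => ⟨σ b.val, hcompl b.val b.2⟩
  let e : Fin l ⊕ B ≃ X :=
    ((Equiv.ofInjective f hf).sumCongr (Equiv.refl B)).trans (Equiv.Set.sumCompl (Set.range f))
  have he_inl : ∀ a, e (Sum.inl a) = f a := fun a => rfl
  have he_inr : ∀ b : B, e (Sum.inr b) = b.val := fun b => rfl
  refine ⟨l, B, inferInstance, β, e, ?_, ?_, hlpos, ?_, ?_, ?_⟩
  · intro a b hab
    apply Subtype.ext
    exact hσ (congrArg Subtype.val hab)
  · have h1 := Fintype.card_congr e
    rw [Fintype.card_sum, Fintype.card_fin] at h1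
    omega
  · intro a
    rw [he_inl, he_inl]
    exact hstep a
  · intro b
    rw [he_inr, he_inr]
  · intro a
    rw [he_inl, hl]
    exact Function.minimalPeriod_apply_iterate hper a.val

/-- Every point of the standard cycle has period `l` (from any realisation). -/
theorem cnt_stdCyc_of_split {X : Type} (σ : X → X) (l : ℕ) (g : Fin l → X)
    (hg : Function.Injective g) (h : ∀ a, σ (g a) = g (stdCyc l a))
    (hp : ∀ a, Function.minimalPeriod σ (g a) = l) (l' : ℕ) :
    cnt (stdCyc l) l' = if l' = l then l else 0 := by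
  unfold cnt
  have h1 : ∀ a : Fin l, Function.minimalPeriod (stdCyc l) a = l := fun a => by
    rw [← minimalPeriod_of_semiconj g hg (stdCyc l) σ h a, hp a]
  simp only [h1]
  by_cases hl : l' = l
  · subst hl
    simp
  · have hl' : ¬ l = l' := fun h => hl h.symm
    simp [hl, hl']

end Comb

section Main

variable {k : Type} [Field k] {N : Type} [AddCommGroup N] [Module k N] [Module.Finite k N]
  (T : N →ₗ[k] N)

/-- The characteristic polynomial of `(standard l-cycle) ⊗ T`. -/
def cycPoly (l : ℕ) : k[X] := LinearMap.charpoly (permTensor (stdCyc l) T)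

/-- The structure theorem: `charpoly (σ ⊗ T) = ∏_l P_l ^ (c_σ(l) / l)`, and `l ∣ c_σ(l)`. -/
theorem charpoly_permTensor_eq (n : ℕ) :
    ∀ (X : Type) [Fintype X] (σ : X → X), Function.Injective σ → Fintype.card X = n →
      (∀ l, l ∣ cnt σ l) ∧
      ∀ M, n < M → LinearMap.charpoly (permTensor σ T) =
        ∏ l ∈ Finset.range M, cycPoly T l ^ (cnt σ l / l) := by
  induction n using Nat.strong_induction_on with
  | _ n ih =>
    intro X _ σ hσ hX
    rcases isEmpty_or_nonempty X with hE | ⟨⟨x₀⟩⟩
    · have hc : ∀ l, cnt σ l = 0 := fun l => by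
        unfold cnt
        exact Finset.sum_eq_zero (fun x _ => (hE.false x).elim)
      refine ⟨fun l => by rw [hc l]; exact dvd_zero l, fun M _ => ?_⟩
      rw [charpoly_permTensor_empty]
      symm
      apply Finset.prod_eq_one
      intro l _
      rw [hc l, Nat.zero_div, pow_zero]
    · obtain ⟨l, B, hB, β, e, hβ, hcard, hlpos, hα, hβe, hper⟩ := exists_split σ hσ x₀
      have hlt : Fintype.card B < n := by omega
      obtain ⟨hdvdB, hprodB⟩ := ih (Fintype.card B) hlt B β hβ rfl
      have hcs : ∀ l', cnt σ l' = (if l' = l then l else 0) + cnt β l' := by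
        intro l'
        rw [cnt_sum e (stdCyc l) β σ hα hβe l',
          cnt_stdCyc_of_split σ l (fun a => e (Sum.inl a))
            (fun a b hab => Sum.inl_injective (e.injective hab)) hα hper l']
      refine ⟨fun l' => ?_, fun M hM => ?_⟩
      · rw [hcs l']
        by_cases h : l' = l
        · rw [if_pos h]
          exact dvd_add (by rw [h]) (hdvdB l')
        · rw [if_neg h, zero_add]
          exact hdvdB l'
      · have hlM : l ∈ Finset.range M := Finset.mem_range.2 (by omega)
        rw [charpoly_permTensor_sum T e (stdCyc l) β σ hα hβe, hprodB M (by omega)]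
        have hexp : ∀ l' ∈ Finset.range M, cycPoly T l' ^ (cnt σ l' / l') =
            (if l' = l then cycPoly T l else 1) * cycPoly T l' ^ (cnt β l' / l') := by
          intro l' _
          rw [hcs l']
          by_cases h : l' = l
          · rw [if_pos h, if_pos h, h, Nat.add_div_left _ hlpos, pow_succ, mul_comm]
          · rw [if_neg h, if_neg h, zero_add, one_mul]
        rw [Finset.prod_congr rfl hexp, Finset.prod_mul_distrib, Finset.prod_ite_eq' _ _ _,
          if_pos hlM]
        rfl

/-- Fixed points of `σ ^ t` counted by exact periods. -/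
theorem card_fix_eq {X : Type} [Fintype X] (σ : Equiv.Perm X) (t : ℕ) (ht : 0 < t) :
    Nat.card {x : X // (σ ^ t) x = x} = ∑ l ∈ t.divisors, cnt (⇑σ) l := by
  classical
  rw [Nat.card_eq_fintype_card, Fintype.card_subtype, Finset.card_filter]
  unfold cnt
  rw [Finset.sum_comm]
  refine Finset.sum_congr rfl (fun x _ => ?_)
  rw [Finset.sum_ite_eq]
  have h : (σ ^ t) x = x ↔ Function.minimalPeriod (⇑σ) x ∈ t.divisors := by
    rw [Nat.mem_divisors, ← Function.isPeriodicPt_iff_minimalPeriod_dvd]
    show _ ↔ (⇑σ)^[t] x = x ∧ _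
    rw [Equiv.Perm.iterate_eq_pow]
    exact ⟨fun h => ⟨h, ht.ne'⟩, fun h => h.1⟩
  simp only [h]

/-- Divisor sums determine the summands. -/
theorem divisor_sum_inj (F F' : ℕ → ℕ)
    (h : ∀ t, 0 < t → ∑ l ∈ t.divisors, F l = ∑ l ∈ t.divisors, F' l) :
    ∀ t, 0 < t → F t = F' t := by
  intro t
  induction t using Nat.strong_induction_on with
  | _ t ih =>
    intro ht
    have h1 := h t ht
    rw [← Nat.insert_self_properDivisors ht.ne',
      Finset.sum_insert Nat.self_notMem_properDivisors,
      Finset.sum_insert Nat.self_notMem_properDivisors] at h1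
    have h2 : ∑ l ∈ t.properDivisors, F l = ∑ l ∈ t.properDivisors, F' l :=
      Finset.sum_congr rfl (fun l hl =>
        ih l (Nat.mem_properDivisors.1 hl).2 (Nat.pos_of_mem_properDivisors hl))
    omega

/-- **PERM.** -/
theorem permCharpoly : PermCharpolyStatement := by
  intro k _ N _ _ _ T I _ X _ σ n n' H
  classical
  have hstruct : ∀ i, (∀ l, l ∣ cnt (⇑(σ i)) l) ∧
      ∀ M, Fintype.card (X i) < M → LinearMap.charpoly (permTensor (⇑(σ i)) T) =
        ∏ l ∈ Finset.range M, cycPoly T l ^ (cnt (⇑(σ i)) l / l) :=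
    fun i => charpoly_permTensor_eq T _ (X i) (σ i) (σ i).injective rfl
  obtain ⟨M, hMdef⟩ : ∃ M, M = (∑ i, Fintype.card (X i)) + 1 := ⟨_, rfl⟩
  have hM : ∀ i, Fintype.card (X i) < M := fun i => by
    rw [hMdef]
    exact Nat.lt_succ_of_le
      (Finset.single_le_sum (f := fun i => Fintype.card (X i)) (fun _ _ => Nat.zero_le _)
        (Finset.mem_univ i))
  have hF : ∀ t, 0 < t →
      ∑ i, n i * cnt (⇑(σ i)) t = ∑ i, n' i * cnt (⇑(σ i)) t := by
    apply divisor_sum_inj
    intro t ht
    have h1 := H t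
    simp only [card_fix_eq _ t ht, Finset.mul_sum] at h1
    rw [Finset.sum_comm, h1, Finset.sum_comm]
  have hD : ∀ l, ∑ i, n i * (cnt (⇑(σ i)) l / l) = ∑ i, n' i * (cnt (⇑(σ i)) l / l) := by
    intro l
    rcases Nat.eq_zero_or_pos l with h0 | hpos
    · subst h0
      simp
    · apply Nat.eq_of_mul_eq_mul_left hpos
      rw [Finset.mul_sum, Finset.mul_sum]
      have h2 : ∀ m : I → ℕ, ∑ i, l * (m i * (cnt (⇑(σ i)) l / l)) =
          ∑ i, m i * cnt (⇑(σ i)) l := fun m =>
        Finset.sum_congr rfl (fun i _ => by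
          rw [mul_left_comm, Nat.mul_div_cancel' ((hstruct i).1 l)])
      rw [h2, h2, hF l hpos]
  have hprod : ∀ m : I → ℕ, ∏ i, LinearMap.charpoly (permTensor (⇑(σ i)) T) ^ m i =
      ∏ l ∈ Finset.range M, cycPoly T l ^ (∑ i, m i * (cnt (⇑(σ i)) l / l)) := by
    intro m
    calc ∏ i, LinearMap.charpoly (permTensor (⇑(σ i)) T) ^ m i
        = ∏ i, ∏ l ∈ Finset.range M, cycPoly T l ^ (m i * (cnt (⇑(σ i)) l / l)) :=
          Finset.prod_congr rfl (fun i _ => by
            rw [(hstruct i).2 M (hM i), ← Finset.prod_pow]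
            exact Finset.prod_congr rfl (fun l _ => by rw [← pow_mul, mul_comm]))
      _ = ∏ l ∈ Finset.range M, ∏ i, cycPoly T l ^ (m i * (cnt (⇑(σ i)) l / l)) :=
          Finset.prod_comm
      _ = _ := Finset.prod_congr rfl (fun l _ => Finset.prod_pow_eq_pow_sum _ _ _)
  rw [hprod n, hprod n']
  exact Finset.prod_congr rfl (fun l _ => by rw [hD l])

end Main

end Fermat.Agent.S56.Euler.H635

end
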