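import Fermat.Agent.S56.Euler.IndSpec

/-!
# Row S56 / Euler characteristic / leaf EUL-IND:TRIND — `TraceIndepStatement` (helper206)

The trace functions `g ↦ tr(g | S_i)` of pairwise non-isomorphic simple `𝔽_p[G]`-modules are
linearly independent over `𝔽_p`.

Route (memo `coord/S56-EULER-helper366.md` §2 (I2)), all Mathlib-only:

* `exists_smul_eq_single` — Jacobson density (`jacobson_density`) on the semisimple module
  `Π i, V i`; by Schur its endomorphisms are diagonal, so every additive endomorphism of `V i₀`
  commuting with `End_A (V i₀)` is induced by some `r : A` killing the other `V j`;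
* `exists_commuting_trace_ne_zero` — `D = End_A V` is a finite division ring, hence a field
  (`littleWedderburn`), separable over the finite field `k`, so `Algebra.trace k D` is onto; the
  rank-one map `v ↦ (λ * h v) • v₀` has `k`-trace `Tr_{D/k} λ`;
* `trace_indep` — the abstract statement for modules over a `k`-algebra;
* `traceIndep : TraceIndepStatement` — transfer through `Representation.asModule`.
-/

set_option autoImplicit false
set_option linter.style.haveILetI false

noncomputable section

namespace Fermat.Agent.S56.Euler.TrIndH206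

open Module

section Density

variable {A : Type*} [Ring A]

/-- Schur: an endomorphism of a product of pairwise non-isomorphic simple modules has no
off-diagonal components. -/
theorem end_pi_single_apply_of_ne {ι : Type*} [DecidableEq ι] (V : ι → Type*)
    [∀ i, AddCommGroup (V i)] [∀ i, Module A (V i)] [∀ i, IsSimpleModule A (V i)]
    (hne : ∀ i j, Nonempty (V i ≃ₗ[A] V j) → i = j)
    (u : (∀ i, V i) →ₗ[A] (∀ i, V i)) {i j : ι} (hij : i ≠ j) (v : V i) :
    u (Pi.single i v) j = 0 := by
  let w : V i →ₗ[A] V j := (LinearMap.proj j) ∘ₗ u ∘ₗ (LinearMap.single A V i)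
  rcases w.bijective_or_eq_zero with hw | hw
  · exact absurd (hne i j ⟨LinearEquiv.ofBijective w hw⟩) hij
  · have := congrArg (fun f => f v) hw
    simpa [w] using this

/-- Jacobson density for finitely many pairwise non-isomorphic finite simple modules: every
additive endomorphism of `V i₀` commuting with `End_A (V i₀)` is induced by an element of `A`
killing all the other `V j`. -/
theorem exists_smul_eq_single {ι : Type*} [Fintype ι] (V : ι → Type*)
    [∀ i, AddCommGroup (V i)] [∀ i, Module A (V i)] [∀ i, Finite (V i)]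
    [∀ i, IsSimpleModule A (V i)]
    (hne : ∀ i j, Nonempty (V i ≃ₗ[A] V j) → i = j) (i₀ : ι)
    (φ : V i₀ →+ V i₀) (hφ : ∀ (d : Module.End A (V i₀)) (v : V i₀), φ (d v) = d (φ v)) :
    ∃ r : A, (∀ v : V i₀, r • v = φ v) ∧ ∀ j, j ≠ i₀ → ∀ v : V j, r • v = 0 := by
  classical
  let M := ∀ i, V i
  have key : ∀ (u : M →ₗ[A] M) (w : V i₀),
      u (Pi.single i₀ w) = Pi.single i₀ (u (Pi.single i₀ w) i₀) := by
    intro u w
    funext j
    by_cases hj : j = i₀
    · subst hj; simp
    · rw [Pi.single_eq_of_ne hj]
      exact end_pi_single_apply_of_ne V hne u (Ne.symm hj) w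
  have key2 : ∀ (u : M →ₗ[A] M) (m : M), u m i₀ = u (Pi.single i₀ (m i₀)) i₀ := by
    intro u m
    conv_lhs => rw [← Finset.univ_sum_single m]
    rw [map_sum, Finset.sum_apply]
    refine Finset.sum_eq_single i₀ ?_ ?_
    · intro j _ hj
      exact end_pi_single_apply_of_ne V hne u hj (m j)
    · intro h; exact absurd (Finset.mem_univ _) h
  let f : M →ₗ[Module.End A M] M :=
    { toFun := fun m => Pi.single i₀ (φ (m i₀))
      map_add' := fun m m' => by
        show Pi.single i₀ (φ (m i₀ + m' i₀)) = _
        rw [map_add, Pi.single_add]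
      map_smul' := fun u m => by
        show Pi.single i₀ (φ (u m i₀)) = u (Pi.single i₀ (φ (m i₀)))
        let u₀ : Module.End A (V i₀) := (LinearMap.proj i₀) ∘ₗ u ∘ₗ (LinearMap.single A V i₀)
        have h1 : u m i₀ = u₀ (m i₀) := key2 u m
        have h2 : u (Pi.single i₀ (φ (m i₀))) = Pi.single i₀ (u₀ (φ (m i₀))) := key u _
        rw [h1, h2, hφ] }
  haveI : Finite M := inferInstance
  letI : Fintype M := Fintype.ofFinite M
  obtain ⟨r, hr⟩ := jacobson_density f Finset.univ
  refine ⟨r, fun v => ?_, fun j hj v => ?_⟩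
  · have := congrFun (hr (Pi.single i₀ v) (Finset.mem_univ _)) i₀
    have h3 : f (Pi.single i₀ v) i₀ = φ v := by
      show (Pi.single i₀ (φ ((Pi.single i₀ v : M) i₀)) : M) i₀ = φ v
      simp
    rw [h3] at this
    rw [this]
    show r • v = r • (Pi.single i₀ v : ∀ i, V i) i₀
    rw [Pi.single_eq_same]
  · have := congrFun (hr (Pi.single j v) (Finset.mem_univ _)) j
    have h3 : f (Pi.single j v) j = 0 := by
      show (Pi.single i₀ (φ ((Pi.single j v : M) i₀)) : M) j = 0
      rw [Pi.single_eq_of_ne hj]
    rw [h3] at this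
    have h4 : r • (Pi.single j v : ∀ i, V i) j = 0 := this.symm
    rwa [Pi.single_eq_same] at h4

end Density

section Abstract

variable {k A : Type*} [Field k] [Finite k] [Ring A] [Algebra k A]

/-- On a simple module `V` over an algebra over a finite field `k` (finite-dimensional over `k`)
there is a `k`-linear endomorphism commuting with `End_A V` whose `k`-trace is nonzero. -/
theorem exists_commuting_trace_ne_zero (V : Type*) [AddCommGroup V] [Module k V] [Module A V]
    [IsScalarTower k A V] [Module.Finite k V] [IsSimpleModule A V] :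
    ∃ ψ : V →ₗ[k] V, (∀ (d : Module.End A V) (v : V), ψ (d v) = d (ψ v)) ∧
      LinearMap.trace k V ψ ≠ 0 := by
  classical
  haveI : Finite V := Module.finite_of_finite k
  haveI : Nontrivial V := IsSimpleModule.nontrivial A V
  let D := Module.End A V
  haveI : Finite D := Finite.of_injective (fun d : D => (d : V → V)) DFunLike.coe_injective
  letI : Field D := littleWedderburn D
  haveI i3 : IsScalarTower k D V := ⟨fun c d v => rfl⟩
  obtain ⟨lam, hlam⟩ := Algebra.trace_surjective k D 1
  obtain ⟨v₀, hv₀⟩ := exists_ne (0 : V)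
  let g : D →ₗ[D] V := LinearMap.toSpanSingleton D V v₀
  have hg : LinearMap.ker g = ⊥ := LinearMap.ker_toSpanSingleton D hv₀
  obtain ⟨h, hh⟩ := g.exists_leftInverse_of_injective hg
  let gk : D →ₗ[k] V := g.restrictScalars k
  let hk : V →ₗ[k] D := h.restrictScalars k
  let mk : D →ₗ[k] D := Algebra.lmul k D lam
  refine ⟨gk ∘ₗ mk ∘ₗ hk, ?_, ?_⟩
  · intro d v
    have h1 : h (d v) = d * h v := h.map_smul d v
    show g (lam * h (d v)) = d (g (lam * h v))
    rw [h1]
    show (lam * (d * h v)) v₀ = d ((lam * h v) v₀)
    rw [← mul_assoc, mul_comm lam d, mul_assoc]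
    rfl
  · rw [LinearMap.trace_comp_comm']
    have : (mk ∘ₗ hk) ∘ₗ gk = mk := by
      refine LinearMap.ext fun d => ?_
      have h2 : h (g d) = d := by
        have := congrArg (fun f => f d) hh
        simpa using this
      show lam * h (g d) = lam * d
      rw [h2]
    rw [this]
    show Algebra.trace k D lam ≠ 0
    rw [hlam]
    exact one_ne_zero

/-- **Linear independence of traces**, abstract form: pairwise non-isomorphic simple modules
`V i` over an algebra `A` over a finite field `k`, finite-dimensional over `k`. -/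
theorem trace_indep {ι : Type*} [Fintype ι] (V : ι → Type*) [∀ i, AddCommGroup (V i)]
    [∀ i, Module k (V i)] [∀ i, Module A (V i)] [∀ i, IsScalarTower k A (V i)]
    [∀ i, Module.Finite k (V i)] [∀ i, IsSimpleModule A (V i)]
    (hne : ∀ i j, Nonempty (V i ≃ₗ[A] V j) → i = j) (a : ι → k)
    (h : ∀ r : A, ∑ i, a i * LinearMap.trace k (V i) (Algebra.lsmul k k (V i) r) = 0) (i₀ : ι) :
    a i₀ = 0 := by
  classical
  haveI : ∀ i, Finite (V i) := fun i => Module.finite_of_finite k
  obtain ⟨ψ, hψ, htr⟩ := exists_commuting_trace_ne_zero (k := k) (A := A) (V i₀)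
  obtain ⟨r, hr, hr0⟩ := exists_smul_eq_single V hne i₀ ψ.toAddMonoidHom hψ
  have h1 := h r
  rw [Finset.sum_eq_single i₀] at h1
  · have h2 : Algebra.lsmul k k (V i₀) r = ψ := LinearMap.ext fun v => hr v
    rw [h2] at h1
    exact (mul_eq_zero.mp h1).resolve_right htr
  · intro j _ hj
    have h2 : Algebra.lsmul k k (V j) r = 0 := LinearMap.ext fun v => hr0 j hj v
    rw [h2, map_zero, mul_zero]
  · intro hi; exact absurd (Finset.mem_univ _) hi

end Abstract

section Transfer

variable {k G : Type} [Field k] [Group G]

/-- A simple representation gives a simple module over the group algebra. -/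
theorem isSimpleModule_asModule (S : FDRepData k G) (hS : IsSimpleRep S) :
    IsSimpleModule (MonoidAlgebra k G) S.ρ.asModule := by
  haveI : Nontrivial S.ρ.asModule := hS.1
  rw [isSimpleModule_iff]
  refine { exists_pair_ne := exists_pair_ne _, eq_bot_or_eq_top := fun W => ?_ }
  let W' : Submodule k S.V :=
    (W.restrictScalars k).comap S.ρ.asModuleEquiv.symm.toLinearMap
  have hmem : ∀ x : S.V, x ∈ W' ↔ S.ρ.asModuleEquiv.symm x ∈ W := fun x => Iff.rfl
  have hinv : ∀ g, ∀ w ∈ W', S.ρ g w ∈ W' := by
    intro g w hw
    rw [hmem] at hw ⊢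
    rw [Representation.asModuleEquiv_symm_map_rho]
    exact W.smul_mem _ hw
  rcases hS.2 W' hinv with h | h
  · left
    refine (Submodule.eq_bot_iff _).mpr fun x hx => ?_
    have h1 : S.ρ.asModuleEquiv x ∈ W' := by
      rw [hmem, LinearEquiv.symm_apply_apply]; exact hx
    rw [h, Submodule.mem_bot] at h1
    exact (LinearEquiv.map_eq_zero_iff _).mp h1
  · right
    refine Submodule.eq_top_iff'.mpr fun x => ?_
    have h1 : S.ρ.asModuleEquiv x ∈ W' := by rw [h]; exact Submodule.mem_top
    rw [hmem, LinearEquiv.symm_apply_apply] at h1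
    exact h1

/-- An isomorphism of the associated modules gives an isomorphism of representations. -/
theorem repIso_of_linearEquiv (S T : FDRepData k G)
    (e : S.ρ.asModule ≃ₗ[MonoidAlgebra k G] T.ρ.asModule) : RepIso S T := by
  refine ⟨(S.ρ.asModuleEquiv.symm.trans (e.restrictScalars k)).trans T.ρ.asModuleEquiv,
    fun g a => ?_⟩
  show T.ρ.asModuleEquiv (e (S.ρ.asModuleEquiv.symm (S.ρ g a))) =
    T.ρ g (T.ρ.asModuleEquiv (e (S.ρ.asModuleEquiv.symm a)))
  rw [Representation.asModuleEquiv_symm_map_rho, map_smul,
    Representation.asModuleEquiv_map_smul, Representation.asAlgebraHom_of]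

/-- The trace of a group element on the associated module. -/
theorem trace_lsmul_of (S : FDRepData k G) (g : G) :
    LinearMap.trace k S.ρ.asModule
        (Algebra.lsmul k k S.ρ.asModule (MonoidAlgebra.of k G g)) =
      LinearMap.trace k S.V (S.ρ g) := by
  rw [← LinearMap.trace_conj' _ S.ρ.asModuleEquiv]
  congr 1
  refine LinearMap.ext fun v => ?_
  rw [LinearEquiv.conj_apply_apply]
  show S.ρ.asModuleEquiv (MonoidAlgebra.of k G g • S.ρ.asModuleEquiv.symm v) = _
  rw [Representation.asModuleEquiv_map_smul, Representation.asAlgebraHom_of,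
    LinearEquiv.apply_symm_apply]

/-- Extension of the trace relation from `G` to the group algebra. -/
theorem sum_trace_lsmul_eq_zero {ι : Type} [Fintype ι] (S : ι → FDRepData k G) (a : ι → k)
    (h : ∀ g : G, ∑ i, a i * LinearMap.trace k (S i).V ((S i).ρ g) = 0)
    (r : MonoidAlgebra k G) :
    ∑ i, a i * LinearMap.trace k (S i).ρ.asModule
      (Algebra.lsmul k k (S i).ρ.asModule r) = 0 := by
  induction r using MonoidAlgebra.induction_linear with
  | zero => simp
  | add x y hx hy =>
    simp only [map_add, mul_add, Finset.sum_add_distrib, hx, hy, add_zero]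
  | single g c =>
    have h1 : (MonoidAlgebra.single g c : MonoidAlgebra k G) = c • MonoidAlgebra.of k G g := by
      rw [MonoidAlgebra.smul_of]
    simp only [h1, map_smul, smul_eq_mul, trace_lsmul_of]
    have h2 : ∀ i, a i * (c * LinearMap.trace k (S i).V ((S i).ρ g)) =
        c * (a i * LinearMap.trace k (S i).V ((S i).ρ g)) := fun i => by ring
    simp only [h2, ← Finset.mul_sum, h g, mul_zero]

end Transfer

/-- **TRIND**: the traces of pairwise non-isomorphic simple `𝔽_p[G]`-modules are linearly
independent over `𝔽_p`. -/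
theorem traceIndep : TraceIndepStatement := by
  intro p _ G _ _ ι _ S hS hne a h i₀
  haveI : ∀ i, IsSimpleModule (MonoidAlgebra (ZMod p) G) (S i).ρ.asModule :=
    fun i => isSimpleModule_asModule (S i) (hS i)
  exact trace_indep (k := ZMod p) (A := MonoidAlgebra (ZMod p) G)
    (fun i => (S i).ρ.asModule)
    (fun i j ⟨e⟩ => hne i j (repIso_of_linearEquiv (S i) (S j) e)) a
    (sum_trace_lsmul_eq_zero S a h) i₀

end Fermat.Agent.S56.Euler.TrIndH206

end
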