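import Fermat.Agent.S56.Euler.IndSpec

/-!
# Row S56 / Euler characteristic / leaf IND — TRSS (helper635)

`traceSS : TraceSSStatement`: for `g` in a finite group, `h := g ^ (p ^ orderOf g)` is
`p`-regular and `tr(ρ g) = tr(ρ h)` for every finite-dimensional representation over `ZMod p`
(`tr(M ^ p) = (tr M) ^ p = tr M` over `ZMod p`).
-/

set_option autoImplicit false

namespace Fermat.Agent.S56.Euler.H635

open Fermat.Agent.S56.Euler

/-- Over `ZMod p`, `tr (f ^ p) = tr f`. -/
theorem trace_pow_prime (p : ℕ) [Fact p.Prime] {V : Type*} [AddCommGroup V] [Module (ZMod p) V]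
    [Module.Finite (ZMod p) V] (f : V →ₗ[ZMod p] V) :
    LinearMap.trace (ZMod p) V (f ^ p) = LinearMap.trace (ZMod p) V f := by
  classical
  let b := Module.finBasis (ZMod p) V
  rw [LinearMap.trace_eq_matrix_trace (ZMod p) b, LinearMap.trace_eq_matrix_trace (ZMod p) b,
    ← LinearMap.toMatrix_pow, ZMod.trace_pow_card, ZMod.pow_card]

/-- Over `ZMod p`, `tr (f ^ (p ^ N)) = tr f`. -/
theorem trace_pow_prime_pow (p : ℕ) [Fact p.Prime] {V : Type*} [AddCommGroup V]
    [Module (ZMod p) V] [Module.Finite (ZMod p) V] (f : V →ₗ[ZMod p] V) (N : ℕ) :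
    LinearMap.trace (ZMod p) V (f ^ (p ^ N)) = LinearMap.trace (ZMod p) V f := by
  induction N with
  | zero => simp
  | succ N ih => rw [pow_succ, pow_mul, trace_pow_prime, ih]

/-- `g ^ (p ^ N)` is `p`-regular as soon as `orderOf g ∣ p ^ N * m` with `p ∤ m`. -/
theorem isPRegular_pow (p : ℕ) [Fact p.Prime] {G : Type} [Group G] [Finite G] (g : G) :
    IsPRegular p (g ^ (p ^ orderOf g)) := by
  have hp : p.Prime := Fact.out
  have hn : orderOf g ≠ 0 := (orderOf_pos g).ne'
  obtain ⟨e, m, hm, hnm⟩ := Nat.exists_eq_pow_mul_and_not_dvd hn p hp.ne_one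
  have he : e ≤ orderOf g := by
    have h1 : p ^ e ≤ orderOf g := Nat.le_of_dvd (orderOf_pos g) ⟨m, hnm⟩
    exact (Nat.lt_pow_self hp.one_lt).le.trans h1
  have hdvd : orderOf g ∣ p ^ orderOf g * m := by
    conv_lhs => rw [hnm]
    exact Nat.mul_dvd_mul (pow_dvd_pow p he) dvd_rfl
  have h1 : (g ^ (p ^ orderOf g)) ^ m = 1 := by
    rw [← pow_mul]
    exact orderOf_dvd_iff_pow_eq_one.1 hdvd
  intro hdiv
  exact hm (hdiv.trans (orderOf_dvd_of_pow_eq_one h1))

/-- **TRSS.** -/
theorem traceSS : TraceSSStatement := by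
  intro p _ G _ _ g
  refine ⟨g ^ (p ^ orderOf g), isPRegular_pow p g, fun W => ?_⟩
  rw [map_pow, trace_pow_prime_pow]

end Fermat.Agent.S56.Euler.H635
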