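import Fermat.Agent.S56.Euler.IndSpec

/-!
# Row S56 / Euler characteristic / leaf EUL-IND:UNIQ (helper939)

`uniq_of : TraceIndepStatement → TraceSSStatement → UniqStatement`.

Multiplicative independence of the characteristic polynomials of pairwise non-isomorphic simple
`𝔽_p[G]`-modules on `p`-regular elements, from the linear independence of their traces (TRIND)
and `tr(g) = tr(g_s)` (TRSS).

Proof (induction on `∑ (m i + m' i)`): cancel `min (m i) (m' i)` (`𝔽_p[T]` is a domain, the
characteristic polynomials are monic).  If the supports are disjoint, the next-to-leading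
coefficients give `∑ (m i - m' i) tr_i = 0` on `p`-regular elements, hence everywhere by TRSS,
hence `p ∣ m i, m' i` by TRIND; the Frobenius of `𝔽_p[T]` is injective, so the relation holds
for `m / p`, `m' / p`.
-/

set_option autoImplicit false

open Polynomial

noncomputable section

namespace Fermat.Agent.S56.Euler.H939

/-- The trace is minus the next-to-leading coefficient of the characteristic polynomial. -/
lemma trace_eq_neg_nextCoeff_charpoly {k V : Type} [Field k] [AddCommGroup V] [Module k V]
    [Module.Finite k V] (f : V →ₗ[k] V) :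
    LinearMap.trace k V f = -(LinearMap.charpoly f).nextCoeff := by
  rw [LinearMap.charpoly_def, ← Matrix.trace_eq_neg_charpoly_nextCoeff,
    ← LinearMap.trace_eq_matrix_trace]

/-- the weighted sum of traces from the weighted product of characteristic polynomials -/
lemma sum_trace_of_prod_charpoly {k : Type} [Field k] {ι : Type} [Fintype ι]
    (V : ι → Type) [∀ i, AddCommGroup (V i)] [∀ i, Module k (V i)] [∀ i, Module.Finite k (V i)]
    (f : ∀ i, V i →ₗ[k] V i) (m m' : ι → ℕ)
    (h : ∏ i, LinearMap.charpoly (f i) ^ m i = ∏ i, LinearMap.charpoly (f i) ^ m' i) :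
    ∑ i, (m i : k) * LinearMap.trace k (V i) (f i) =
      ∑ i, (m' i : k) * LinearMap.trace k (V i) (f i) := by
  have key : ∀ n : ι → ℕ, (∏ i, LinearMap.charpoly (f i) ^ n i).nextCoeff =
      -∑ i, (n i : k) * LinearMap.trace k (V i) (f i) := by
    intro n
    rw [Monic.nextCoeff_prod _ _ (fun i _ => (LinearMap.charpoly_monic (f i)).pow (n i)),
      ← Finset.sum_neg_distrib]
    refine Finset.sum_congr rfl fun i _ => ?_
    rw [(LinearMap.charpoly_monic (f i)).nextCoeff_pow, trace_eq_neg_nextCoeff_charpoly,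
      nsmul_eq_mul, mul_neg, neg_neg]
  have h1 := key m
  rw [h, key m'] at h1
  exact (neg_injective h1).symm

theorem uniq_of (hTI : TraceIndepStatement) (hSS : TraceSSStatement) : UniqStatement := by
  intro p _ G _ _ ι _ S hsimple hniso
  have hp : p.Prime := Fact.out
  suffices H : ∀ (N : ℕ) (m m' : ι → ℕ), ∑ i, (m i + m' i) = N →
      (∀ g : G, IsPRegular p g →
        ∏ i, LinearMap.charpoly ((S i).ρ g) ^ m i =
          ∏ i, LinearMap.charpoly ((S i).ρ g) ^ m' i) → m = m' by
    intro m m' h
    exact H _ m m' rfl h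
  intro N
  induction N using Nat.strong_induction_on with
  | _ N ih =>
  intro m m' hN h
  by_cases hd : ∃ i, 0 < m i ∧ 0 < m' i
  · -- cancel the common part
    obtain ⟨i₀, h1, h2⟩ := hd
    set d : ι → ℕ := fun i => min (m i) (m' i) with hd_def
    set m₁ : ι → ℕ := fun i => m i - d i with hm₁
    set m₁' : ι → ℕ := fun i => m' i - d i with hm₁'
    have e1 : ∀ i, m i = d i + m₁ i := fun i => by
      simp only [hm₁, hd_def]; omega
    have e2 : ∀ i, m' i = d i + m₁' i := fun i => by
      simp only [hm₁', hd_def]; omega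
    have hlt : ∑ i, (m₁ i + m₁' i) < N := by
      rw [← hN]
      refine Finset.sum_lt_sum (fun i _ => ?_) ⟨i₀, Finset.mem_univ _, ?_⟩
      · rw [e1 i, e2 i]; omega
      · have hdpos : 0 < d i₀ := by simp only [hd_def]; omega
        rw [e1 i₀, e2 i₀]; omega
    have hrel : ∀ g : G, IsPRegular p g →
        ∏ i, LinearMap.charpoly ((S i).ρ g) ^ m₁ i =
          ∏ i, LinearMap.charpoly ((S i).ρ g) ^ m₁' i := by
      intro g hg
      have hg' := h g hg
      have s1 : ∀ n n₁ : ι → ℕ, (∀ i, n i = d i + n₁ i) →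
          ∏ i, LinearMap.charpoly ((S i).ρ g) ^ n i =
            (∏ i, LinearMap.charpoly ((S i).ρ g) ^ d i) *
              ∏ i, LinearMap.charpoly ((S i).ρ g) ^ n₁ i := by
        intro n n₁ hn
        rw [← Finset.prod_mul_distrib]
        refine Finset.prod_congr rfl fun i _ => ?_
        rw [hn i, pow_add]
      rw [s1 m m₁ e1, s1 m' m₁' e2] at hg'
      have hne : (∏ i, LinearMap.charpoly ((S i).ρ g) ^ d i) ≠ 0 :=
        (monic_prod_of_monic _ _ fun i _ => (LinearMap.charpoly_monic _).pow _).ne_zero
      exact mul_left_cancel₀ hne hg'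
    have := ih _ hlt m₁ m₁' rfl hrel
    funext i
    rw [e1 i, e2 i, congrFun this i]
  · -- disjoint supports
    have hdis : ∀ i, m i = 0 ∨ m' i = 0 := by
      intro i
      rcases Nat.eq_zero_or_pos (m i) with h0 | h0
      · exact Or.inl h0
      · rcases Nat.eq_zero_or_pos (m' i) with h0' | h0'
        · exact Or.inr h0'
        · exact absurd ⟨i, h0, h0'⟩ hd
    -- trace relation on `p`-regular elements, then everywhere
    have htr : ∀ g : G, ∑ i, ((m i : ZMod p) - (m' i : ZMod p)) *
        LinearMap.trace (ZMod p) (S i).V ((S i).ρ g) = 0 := by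
      intro g
      obtain ⟨g', hg', hgg'⟩ := hSS p G g
      have := sum_trace_of_prod_charpoly (fun i => (S i).V) (fun i => (S i).ρ g') m m' (h g' hg')
      simp only [sub_mul, Finset.sum_sub_distrib, sub_eq_zero, hgg']
      exact this
    have hzero := hTI p G ι S hsimple hniso (fun i => (m i : ZMod p) - (m' i : ZMod p)) htr
    have hdvd : ∀ i, p ∣ m i ∧ p ∣ m' i := by
      intro i
      have hi := hzero i
      rcases hdis i with h0 | h0
      · rw [h0, Nat.cast_zero, zero_sub, neg_eq_zero, ZMod.natCast_eq_zero_iff] at hi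
        exact ⟨h0 ▸ dvd_zero p, hi⟩
      · rw [h0, Nat.cast_zero, sub_zero, ZMod.natCast_eq_zero_iff] at hi
        exact ⟨hi, h0 ▸ dvd_zero p⟩
    by_cases hN0 : N = 0
    · subst hN0
      have hall : ∀ i, m i + m' i = 0 := fun i =>
        (Finset.sum_eq_zero_iff.mp hN) i (Finset.mem_univ _)
      funext i
      have := hall i
      omega
    set m₁ : ι → ℕ := fun i => m i / p with hm₁
    set m₁' : ι → ℕ := fun i => m' i / p with hm₁'
    have e1 : ∀ i, m i = p * m₁ i := fun i => (Nat.mul_div_cancel' (hdvd i).1).symm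
    have e2 : ∀ i, m' i = p * m₁' i := fun i => (Nat.mul_div_cancel' (hdvd i).2).symm
    have hNeq : N = p * ∑ i, (m₁ i + m₁' i) := by
      rw [← hN, Finset.mul_sum]
      refine Finset.sum_congr rfl fun i _ => ?_
      rw [mul_add, ← e1 i, ← e2 i]
    have hlt : ∑ i, (m₁ i + m₁' i) < N := by
      have hpos : 0 < ∑ i, (m₁ i + m₁' i) := by
        rcases Nat.eq_zero_or_pos (∑ i, (m₁ i + m₁' i)) with h0 | h0
        · rw [h0, mul_zero] at hNeq
          exact absurd hNeq hN0
        · exact h0
      have h2 : 2 ≤ p := hp.two_le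
      calc ∑ i, (m₁ i + m₁' i) < 2 * ∑ i, (m₁ i + m₁' i) := by omega
        _ ≤ p * ∑ i, (m₁ i + m₁' i) := Nat.mul_le_mul_right _ h2
        _ = N := hNeq.symm
    have hrel : ∀ g : G, IsPRegular p g →
        ∏ i, LinearMap.charpoly ((S i).ρ g) ^ m₁ i =
          ∏ i, LinearMap.charpoly ((S i).ρ g) ^ m₁' i := by
      intro g hg
      have hg' := h g hg
      have s1 : ∀ n n₁ : ι → ℕ, (∀ i, n i = p * n₁ i) →
          ∏ i, LinearMap.charpoly ((S i).ρ g) ^ n i =
            (∏ i, LinearMap.charpoly ((S i).ρ g) ^ n₁ i) ^ p := by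
        intro n n₁ hn
        rw [← Finset.prod_pow]
        refine Finset.prod_congr rfl fun i _ => ?_
        rw [hn i, mul_comm, pow_mul]
      rw [s1 m m₁ e1, s1 m' m₁' e2] at hg'
      exact frobenius_inj (ZMod p)[X] p hg'
    have := ih _ hlt m₁ m₁' rfl hrel
    funext i
    rw [e1 i, e2 i, congrFun this i]

end Fermat.Agent.S56.Euler.H939

end
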