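import Fermat.Agent.S56.Euler.IndGlueH809
import Fermat.Agent.S56.Euler.H7.Key
import Fermat.Agent.S56.Euler.CompH486
import Fermat.Agent.S56.Euler.UniqH939
import Fermat.Agent.S56.Euler.TrIndH206
import Fermat.Agent.S56.Euler.TrSSH635
import Fermat.Agent.S56.Euler.PermH635
import Fermat.Agent.S56.Euler.ArtinH512

/-!
# Row S56 / wall W-BASE / Euler characteristic — leaf IND: ASSEMBLY (helper809)

`ind : IndStatement` — modular Artin induction for additive invariants, unconditional.

    IND ⇐ KEY + PERM + ARTIN        KEY ⇐ COMP + UNIQ        UNIQ ⇐ TRIND + TRSS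
-/

set_option autoImplicit false

namespace Fermat.Agent.S56.Euler

/-- (UNIQ), unconditional. -/
theorem uniq : UniqStatement :=
  H939.uniq_of TrIndH206.traceIndep H635.traceSS

/-- (KEY), unconditional. -/
theorem key : KeyStatement :=
  H7.key_of H486.compSeries uniq

/-- (IND) **modular Artin induction**, unconditional. -/
theorem ind : IndStatement :=
  H809.ind_of key H635.permCharpoly H512.artinCount

end Fermat.Agent.S56.Euler
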