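import Mathlib

/-!
# Row S56 / wall W-BASE / Euler characteristic — leaf IND: definitions (helper366)

Modular Artin induction for additive invariants of finite-dimensional representations of a finite
group over `ZMod p`.  Plan: `coord/S56-EULER-helper366.md` (§2).  Mathlib only.

* `FDRepData k G`   — a finite-dimensional representation of `G` over `k` on a module in `Type`.
* `RepInv k G`      — `ℤ`-valued invariants of such representations.
* `IsAdditiveInv f` — `f B = f A + f C` for every short exact sequence `0 → A → B → C → 0`.
* `permData B N`    — `k[G/B] ⊗ N = (G ⧸ B →₀ N)` with the diagonal action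
                      (`single x n ↦ single (g • x) (g n)`; the `indRep` of S55 layer D).
* `IsPRegular p g`  — the order of `g` is prime to `p`.
-/

set_option autoImplicit false

noncomputable section

namespace Fermat.Agent.S56.Euler

/-- A finite-dimensional representation of `G` over `k`, bundled (carrier in `Type`). -/
structure FDRepData (k G : Type) [Field k] [Group G] where
  /-- the carrier -/
  V : Type
  [acg : AddCommGroup V]
  [mod : Module k V]
  [fin : Module.Finite k V]
  /-- the action -/
  ρ : Representation k G V

attribute [instance] FDRepData.acg FDRepData.mod FDRepData.fin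

variable {k G : Type} [Field k] [Group G]

/-- `ℤ`-valued invariants of finite-dimensional representations. -/
abbrev RepInv (k G : Type) [Field k] [Group G] : Type 1 := FDRepData k G → ℤ

/-- `i : A → B` is equivariant. -/
def IsEquivar (A B : FDRepData k G) (i : A.V →ₗ[k] B.V) : Prop :=
  ∀ g a, i (A.ρ g a) = B.ρ g (i a)

/-- `0 → A → B → C → 0` is a short exact sequence of representations. -/
structure IsShortExact (A B C : FDRepData k G) (i : A.V →ₗ[k] B.V) (q : B.V →ₗ[k] C.V) :
    Prop where
  equivar_i : IsEquivar A B i
  equivar_q : IsEquivar B C q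
  inj : Function.Injective i
  surj : Function.Surjective q
  exact : LinearMap.range i = LinearMap.ker q

/-- Additive invariants. -/
def IsAdditiveInv (f : RepInv k G) : Prop :=
  ∀ (A B C : FDRepData k G) (i : A.V →ₗ[k] B.V) (q : B.V →ₗ[k] C.V),
    IsShortExact A B C i q → f B = f A + f C

/-- Isomorphism of representations. -/
def RepIso (A B : FDRepData k G) : Prop :=
  ∃ e : A.V ≃ₗ[k] B.V, ∀ g a, e (A.ρ g a) = B.ρ g (e a)

/-- Simple (irreducible) representations. -/
def IsSimpleRep (A : FDRepData k G) : Prop :=
  Nontrivial A.V ∧ ∀ W : Submodule k A.V, (∀ g, ∀ w ∈ W, A.ρ g w ∈ W) → W = ⊥ ∨ W = ⊤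

/-- `g` has order prime to `p`. -/
def IsPRegular (p : ℕ) (g : G) : Prop := ¬ p ∣ orderOf g

/-- The operator `single x n ↦ single (σ x) (T n)` on `X →₀ N`. -/
def permTensor {X N : Type} [AddCommGroup N] [Module k N] (σ : X → X) (T : N →ₗ[k] N) :
    (X →₀ N) →ₗ[k] (X →₀ N) :=
  (Finsupp.lmapDomain N k σ) ∘ₗ (Finsupp.mapRange.linearMap T)

@[simp] lemma permTensor_single {X N : Type} [AddCommGroup N] [Module k N] (σ : X → X)
    (T : N →ₗ[k] N) (x : X) (n : N) :
    permTensor σ T (Finsupp.single x n) = Finsupp.single (σ x) (T n) := by
  rw [permTensor, LinearMap.comp_apply, Finsupp.mapRange.linearMap_apply,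
    Finsupp.mapRange_single, Finsupp.lmapDomain_apply, Finsupp.mapDomain_single]

/-- The diagonal action of `G` on `X →₀ N` for a `G`-set `X`. -/
def diagRho (X : Type) [MulAction G X] {N : Type} [AddCommGroup N] [Module k N]
    (ρ : Representation k G N) : Representation k G (X →₀ N) where
  toFun g := permTensor (fun x : X => g • x) (ρ g)
  map_one' := by
    apply Finsupp.lhom_ext
    intro x n
    simp
  map_mul' g h := by
    apply Finsupp.lhom_ext
    intro x n
    simp [mul_smul]

@[simp] lemma diagRho_single (X : Type) [MulAction G X] {N : Type} [AddCommGroup N] [Module k N]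
    (ρ : Representation k G N) (g : G) (x : X) (n : N) :
    diagRho X ρ g (Finsupp.single x n) = Finsupp.single (g • x) (ρ g n) :=
  permTensor_single _ _ x n

lemma diagRho_apply (X : Type) [MulAction G X] {N : Type} [AddCommGroup N] [Module k N]
    (ρ : Representation k G N) (g : G) :
    diagRho X ρ g = permTensor (fun x : X => g • x) (ρ g) := rfl

/-- `k[G/B] ⊗ N` as a bundled representation (`G` finite). -/
def permData [Finite G] (B : Subgroup G) (N : FDRepData k G) : FDRepData k G where
  V := (G ⧸ B) →₀ N.V
  fin := by
    have : Fintype (G ⧸ B) := Fintype.ofFinite _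
    exact Module.Finite.of_basis (Finsupp.basis (fun _ : G ⧸ B => Module.Free.chooseBasis k N.V))
  ρ := diagRho (G ⧸ B) N.ρ

end Fermat.Agent.S56.Euler

end
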