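import Fermat.Agent.S56.Euler.IndSpec

/-!
# Row S56 / wall W-BASE / Euler characteristic — leaf IND, GLUE (helper809)

`ind_of : KeyStatement → PermCharpolyStatement → ArtinCountStatement → IndStatement`.

Index type `Option s` (`s` the finite set of cyclic `p'`-subgroups of ARTIN): `none ↦ ⊤`,
`some B ↦ B`; `W i = permData (Bs i) N`; weights `|G|` / `0` at `none` and `a_B^-` / `a_B^+` at
`some B`.  PERM (with `T = N.ρ g`, `σ_i = g` acting on `G ⧸ Bs i`) turns ARTIN (applied to all
powers `g ^ t`) into the hypothesis of KEY; KEY plus the vanishing on `permData B N` gives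
`|G| • f (permData ⊤ N) = 0`, and `permData ⊤ N ≅ N`.
-/

set_option autoImplicit false
set_option linter.style.haveILetI false

open Polynomial

noncomputable section

namespace Fermat.Agent.S56.Euler.H809

open Fermat.Agent.S56.Euler

variable {k G : Type} [Field k] [Group G]

/-- The zero representation. -/
def zeroData (k G : Type) [Field k] [Group G] : FDRepData k G where
  V := PUnit
  ρ := 1

/-- An additive invariant vanishes on the zero representation. -/
lemma additive_zeroData {f : RepInv k G} (hf : IsAdditiveInv f) : f (zeroData k G) = 0 := by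
  have h := hf (zeroData k G) (zeroData k G) (zeroData k G) LinearMap.id 0
    { equivar_i := fun g a => rfl
      equivar_q := fun g a => rfl
      inj := Function.injective_id
      surj := fun y => ⟨y, rfl⟩
      exact := by
        rw [LinearMap.range_id, LinearMap.ker_zero] }
  linarith

/-- Additive invariants are invariant under isomorphism. -/
lemma additive_iso {f : RepInv k G} (hf : IsAdditiveInv f) {A B : FDRepData k G}
    (h : RepIso A B) : f A = f B := by
  obtain ⟨e, he⟩ := h
  have h := hf A B (zeroData k G) e.toLinearMap 0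
    { equivar_i := fun g a => he g a
      equivar_q := fun g a => rfl
      inj := e.injective
      surj := fun y => ⟨0, rfl⟩
      exact := by
        rw [LinearMap.ker_zero]
        exact LinearEquiv.range e }
  rw [h, additive_zeroData hf, add_zero]

/-- `k[G/⊤] ⊗ N ≅ N`. -/
lemma permData_top_iso [Finite G] (N : FDRepData k G) :
    RepIso (permData (⊤ : Subgroup G) N) N := by
  haveI : Subsingleton (G ⧸ (⊤ : Subgroup G)) := QuotientGroup.subsingleton_quotient_top
  let x₀ : G ⧸ (⊤ : Subgroup G) := ((1 : G) : G ⧸ (⊤ : Subgroup G))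
  let e : ((G ⧸ (⊤ : Subgroup G)) →₀ N.V) ≃ₗ[k] N.V := Finsupp.uniqueLinearEquiv k N.V x₀
  refine ⟨e, fun g v => ?_⟩
  change e (diagRho (G ⧸ (⊤ : Subgroup G)) N.ρ g v) = N.ρ g (e v)
  induction v using Finsupp.induction_linear with
  | zero => simp
  | add v w hv hw => simp only [map_add, hv, hw]
  | single x n =>
    rw [diagRho_single]
    simp only [e, Finsupp.uniqueLinearEquiv_apply]
    rw [Subsingleton.elim (g • x) x₀, Subsingleton.elim x x₀]
    simp

/-- fixed points of a power of `toPerm g` are the fixed points of `g ^ t`. -/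
lemma card_fixed_toPerm_pow {X : Type} [MulAction G X] (g : G) (t : ℕ) :
    Nat.card {x : X // (MulAction.toPerm g ^ t) x = x} = Nat.card {x : X // g ^ t • x = x} := by
  have h : (MulAction.toPerm g ^ t : Equiv.Perm X) = MulAction.toPerm (g ^ t) :=
    (map_pow (MulAction.toPermHom G X) g t).symm
  simp only [h, MulAction.toPerm_apply]

/-- `a = a⁺ - a⁻`, multiplied by `c`. -/
lemma int_pos_neg_parts (a c : ℤ) :
    a * c + (((-a).toNat : ℕ) : ℤ) * c = ((a.toNat : ℕ) : ℤ) * c := by
  have hB : ((a.toNat : ℕ) : ℤ) - (((-a).toNat : ℕ) : ℤ) = a := Int.toNat_sub_toNat_neg a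
  linear_combination (-c) * hB

/-- **IND glue**: modular Artin induction from KEY, PERM and ARTIN. -/
theorem ind_of (hKey : KeyStatement) (hPerm : PermCharpolyStatement)
    (hArtin : ArtinCountStatement) : IndStatement := by
  intro p _ G _ _ f hf hvan N
  obtain ⟨s, a, hs, hcount⟩ := hArtin p G
  -- the data
  let I := Option {B : Subgroup G // B ∈ s}
  let Bs : I → Subgroup G := fun i => i.elim ⊤ (fun B => B.1)
  let W : I → FDRepData (ZMod p) G := fun i => permData (Bs i) N
  let n : I → ℕ := fun i => i.elim (Nat.card G) (fun B => (- a B.1).toNat)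
  let n' : I → ℕ := fun i => i.elim 0 (fun B => (a B.1).toNat)
  -- hypothesis of KEY from PERM + ARTIN
  have hchar : ∀ g : G, IsPRegular p g →
      ∏ i, LinearMap.charpoly ((W i).ρ g) ^ n i = ∏ i, LinearMap.charpoly ((W i).ρ g) ^ n' i := by
    intro g hg
    letI : ∀ i : I, Fintype (G ⧸ Bs i) := fun i => Fintype.ofFinite _
    have hP := hPerm (ZMod p) N.V (N.ρ g) I (fun i => G ⧸ Bs i)
      (fun i => MulAction.toPerm g) n n' ?_
    · exact hP
    · intro t
      have hgt : IsPRegular p (g ^ t) := fun h => hg (h.trans (orderOf_pow_dvd t))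
      have hA := hcount (g ^ t) hgt
      simp only [card_fixed_toPerm_pow]
      rw [Fintype.sum_option, Fintype.sum_option]
      have h1 : Nat.card {x : G ⧸ Bs none // g ^ t • x = x} = 1 := by
        haveI : Subsingleton (G ⧸ (⊤ : Subgroup G)) := QuotientGroup.subsingleton_quotient_top
        haveI : Subsingleton (G ⧸ Bs none) := ‹Subsingleton (G ⧸ (⊤ : Subgroup G))›
        haveI : Nonempty {x : G ⧸ Bs none // g ^ t • x = x} :=
          ⟨⟨((1 : G) : G ⧸ Bs none), Subsingleton.elim _ _⟩⟩
        exact Nat.card_unique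
      rw [h1]
      have hA' : ∑ B : {B : Subgroup G // B ∈ s},
          a B.1 * (Nat.card {x : G ⧸ B.1 // g ^ t • x = x} : ℤ) = (Nat.card G : ℤ) := by
        rw [← hA]
        exact Finset.sum_coe_sort s
          (fun B => a B * (Nat.card {x : G ⧸ B // g ^ t • x = x} : ℤ))
      have hcast : ((n none * 1 + ∑ B : {B : Subgroup G // B ∈ s},
            n (some B) * Nat.card {x : G ⧸ Bs (some B) // g ^ t • x = x} : ℕ) : ℤ) =
          ((n' none * 1 + ∑ B : {B : Subgroup G // B ∈ s},
            n' (some B) * Nat.card {x : G ⧸ Bs (some B) // g ^ t • x = x} : ℕ) : ℤ) := by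
        push_cast
        have hn : (n none : ℤ) = (Nat.card G : ℤ) := rfl
        have hn' : (n' none : ℤ) = 0 := by simp [n']
        rw [hn, hn', ← hA']
        simp only [zero_add, mul_one]
        rw [← Finset.sum_add_distrib]
        refine Finset.sum_congr rfl (fun B _ => ?_)
        exact int_pos_neg_parts (a B.1) _
      exact_mod_cast hcast
  have hkey := hKey p G I W n n' hchar f hf
  rw [Fintype.sum_option, Fintype.sum_option] at hkey
  have hz : ∀ B : {B : Subgroup G // B ∈ s}, f (W (some B)) = 0 := fun B =>
    hvan B.1 (hs B.1 B.2).1 (hs B.1 B.2).2 N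
  simp only [hz, mul_zero, Finset.sum_const_zero, add_zero] at hkey
  have hn : (n none : ℤ) = (Nat.card G : ℤ) := rfl
  have hn' : (n' none : ℤ) = 0 := by simp [n']
  rw [hn, hn', zero_mul] at hkey
  have hG : (Nat.card G : ℤ) ≠ 0 := by
    exact_mod_cast Nat.card_pos.ne'
  have htop : f (permData (⊤ : Subgroup G) N) = 0 := by
    rcases mul_eq_zero.mp hkey with h | h
    · exact absurd h hG
    · exact h
  rw [← additive_iso hf (permData_top_iso N)]
  exact htop

end Fermat.Agent.S56.Euler.H809

end
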