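import Fermat.Agent.S56.Euler.IndSpec

/-!
# Row S56 / EUL-IND / leaf PERM (helper875)

`permCharpoly : PermCharpolyStatement`.

Route (no characteristic polynomial of a cycle is ever computed):
1. conjugate permutations (possibly on different finite sets) give the same
   `charpoly (permTensor σ T)` (`LinearEquiv.charpoly_conj` along `Finsupp.domLCongr`);
2. two permutations of finite sets with the same number of fixed points of all powers are
   conjugate (equal `cycleType`, `Equiv.Perm.isConj_iff_cycleType_eq`);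
3. the weighted statement is the unweighted statement for the disjoint unions
   (lists of permutation sets, binary sums, `LinearMap.charpoly_prodMap`).
-/

set_option autoImplicit false

open Polynomial

noncomputable section

namespace Fermat.Agent.S56.Euler.H875

open Fermat.Agent.S56.Euler

/-! ### 1. conjugation invariance -/

lemma charpoly_permTensor_eq_of_equiv {k N : Type} [Field k] [AddCommGroup N] [Module k N]
    [Module.Finite k N] (T : N →ₗ[k] N) {Y Y' : Type} [Fintype Y] [Fintype Y']
    (τ : Equiv.Perm Y) (τ' : Equiv.Perm Y') (e : Y ≃ Y') (h : ∀ y, e (τ y) = τ' (e y)) :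
    LinearMap.charpoly (permTensor (⇑τ) T) = LinearMap.charpoly (permTensor (⇑τ') T) := by
  have key : (Finsupp.domLCongr e : (Y →₀ N) ≃ₗ[k] (Y' →₀ N)).conj (permTensor (⇑τ) T) =
      permTensor (⇑τ') T := by
    apply Finsupp.lhom_ext
    intro y' n
    rw [LinearEquiv.conj_apply_apply, permTensor_single]
    have h1 : (Finsupp.domLCongr e : (Y →₀ N) ≃ₗ[k] (Y' →₀ N)).symm (Finsupp.single y' n) =
        Finsupp.single (e.symm y') n := by
      rw [LinearEquiv.symm_apply_eq, Finsupp.domLCongr_single, Equiv.apply_symm_apply]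
    rw [h1, permTensor_single, Finsupp.domLCongr_single, h, Equiv.apply_symm_apply]
  rw [← key, LinearEquiv.charpoly_conj]

/-! ### 2. fixed-point counts of all powers determine the conjugacy class -/

section Conj

open Equiv Equiv.Perm

lemma card_support_pow_h875 {α : Type} [Fintype α] [DecidableEq α] (σ : Perm α) (t : ℕ) :
    (σ ^ t).support.card = ((σ.cycleType.filter (fun ℓ => ¬ ℓ ∣ t)).sum) := by
  induction σ using Equiv.Perm.cycle_induction_on with
  | base_one => simp
  | base_cycles σ hσ =>
    rw [hσ.cycleType]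
    by_cases hd : σ.support.card ∣ t
    · have h1 : σ ^ t = 1 := by
        rw [← orderOf_dvd_iff_pow_eq_one, hσ.orderOf]; exact hd
      rw [h1, Multiset.filter_singleton, if_neg (not_not.mpr hd)]
      simp
    · have h1 : (σ ^ t).support = σ.support := by
        rw [hσ.support_pow_eq_iff, hσ.orderOf]; exact hd
      rw [h1, Multiset.filter_singleton, if_pos hd]
      simp
  | induction_disjoint σ τ hd hc hσ hτ =>
    rw [hd.commute.mul_pow, (hd.pow_disjoint_pow t t).card_support_mul, hd.cycleType_mul,
      Multiset.filter_add, Multiset.sum_add, hσ, hτ]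

lemma card_fix_add_card_support_h875 {α : Type} [Fintype α] [DecidableEq α] (τ : Perm α) :
    Nat.card {x // τ x = x} + τ.support.card = Fintype.card α := by
  classical
  rw [Nat.card_eq_fintype_card, Fintype.card_subtype, ← Finset.card_univ (α := α),
    ← Finset.card_filter_add_card_filter_not (s := Finset.univ) (fun x => τ x = x)]
  congr 1

lemma sum_filter_dvd_h875 (m : Multiset ℕ) (t : ℕ) (ht : t ≠ 0) :
    (m.filter (· ∣ t)).sum = ∑ d ∈ t.divisors, d * m.count d := by
  induction m using Multiset.induction_on with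
  | empty => simp
  | cons a m ih =>
    have h2 : ∑ d ∈ t.divisors, d * (a ::ₘ m).count d =
        (∑ d ∈ t.divisors, d * m.count d) + (if a ∣ t then a else 0) := by
      simp only [Multiset.count_cons, mul_add, Finset.sum_add_distrib, mul_ite, mul_one, mul_zero]
      congr 1
      rw [Finset.sum_ite_eq' t.divisors a (fun d => d)]
      simp [Nat.mem_divisors, ht]
    rw [h2, ← ih]
    by_cases hd : a ∣ t
    · rw [Multiset.filter_cons_of_pos (p := (· ∣ t)) m hd, Multiset.sum_cons, if_pos hd, add_comm]
    · rw [Multiset.filter_cons_of_neg (p := (· ∣ t)) m hd, if_neg hd, add_zero]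

lemma multiset_eq_of_filter_sums_h875 {m m' : Multiset ℕ} (h2 : ∀ x ∈ m, 2 ≤ x)
    (h2' : ∀ x ∈ m', 2 ≤ x)
    (h : ∀ t : ℕ, (m.filter (fun ℓ => ¬ ℓ ∣ t)).sum = (m'.filter (fun ℓ => ¬ ℓ ∣ t)).sum) :
    m = m' := by
  -- total sums
  have hS : m.sum = m'.sum := by
    have e1 : m.filter (fun ℓ => ¬ ℓ ∣ 1) = m := by
      apply Multiset.filter_eq_self.mpr
      intro x hx hx1
      have := h2 x hx
      have := Nat.le_of_dvd one_pos hx1
      omega
    have e1' : m'.filter (fun ℓ => ¬ ℓ ∣ 1) = m' := by
      apply Multiset.filter_eq_self.mpr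
      intro x hx hx1
      have := h2' x hx
      have := Nat.le_of_dvd one_pos hx1
      omega
    have := h 1
    rwa [e1, e1'] at this
  have hD : ∀ t : ℕ, (m.filter (· ∣ t)).sum = (m'.filter (· ∣ t)).sum := by
    intro t
    have e := congrArg Multiset.sum (Multiset.filter_add_not (fun ℓ => ℓ ∣ t) m)
    have e' := congrArg Multiset.sum (Multiset.filter_add_not (fun ℓ => ℓ ∣ t) m')
    rw [Multiset.sum_add] at e e'
    have := h t
    omega
  have hc : ∀ ℓ : ℕ, m.count ℓ = m'.count ℓ := by
    intro ℓ
    induction ℓ using Nat.strong_induction_on with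
    | _ ℓ ih =>
      rcases Nat.eq_zero_or_pos ℓ with h0 | hpos
      · subst h0
        rw [Multiset.count_eq_zero_of_notMem, Multiset.count_eq_zero_of_notMem]
        · intro hx; have := h2' 0 hx; omega
        · intro hx; have := h2 0 hx; omega
      · have e := hD ℓ
        rw [sum_filter_dvd_h875 m ℓ hpos.ne', sum_filter_dvd_h875 m' ℓ hpos.ne',
          ← Nat.cons_self_properDivisors hpos.ne', Finset.sum_cons, Finset.sum_cons] at e
        have e2 : ∑ d ∈ ℓ.properDivisors, d * m.count d =
            ∑ d ∈ ℓ.properDivisors, d * m'.count d := by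
          apply Finset.sum_congr rfl
          intro d hd
          rw [ih d (Nat.mem_properDivisors.mp hd).2]
        rw [e2] at e
        have e3 : ℓ * m.count ℓ = ℓ * m'.count ℓ := by omega
        exact Nat.eq_of_mul_eq_mul_left hpos e3
  exact Multiset.ext.mpr hc

lemma exists_equiv_of_card_fix_h875 {Y Y' : Type} [Fintype Y] [Fintype Y'] (τ : Perm Y)
    (τ' : Perm Y')
    (h : ∀ t : ℕ, Nat.card {y : Y // (τ ^ t) y = y} = Nat.card {y : Y' // (τ' ^ t) y = y}) :
    ∃ e : Y ≃ Y', ∀ y, e (τ y) = τ' (e y) := by
  classical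
  -- equal cardinalities
  have hcard : Fintype.card Y = Fintype.card Y' := by
    have h0 := h 0
    simp only [pow_zero, Equiv.Perm.coe_one, id_eq] at h0
    rw [Nat.card_eq_fintype_card, Nat.card_eq_fintype_card, Fintype.card_subtype,
      Fintype.card_subtype] at h0
    simpa using h0
  let e₀ : Y ≃ Y' := Fintype.equivOfCardEq hcard
  let τ'' : Perm Y := e₀.symm.permCongr τ'
  have hτ'' : ∀ y, τ'' y = e₀.symm (τ' (e₀ y)) := fun y => by
    simp [τ'', Equiv.permCongr_apply]
  have hpow : ∀ (t : ℕ) (y : Y), (τ'' ^ t) y = e₀.symm ((τ' ^ t) (e₀ y)) := by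
    intro t
    induction t with
    | zero => intro y; simp
    | succ t ih =>
      intro y
      rw [pow_succ, Equiv.Perm.mul_apply, ih, hτ'', Equiv.apply_symm_apply, pow_succ,
        Equiv.Perm.mul_apply]
  have hfix : ∀ t : ℕ, Nat.card {y : Y // (τ ^ t) y = y} = Nat.card {y : Y // (τ'' ^ t) y = y} := by
    intro t
    rw [h t]
    symm
    apply Nat.card_congr
    refine e₀.subtypeEquiv ?_
    intro y
    rw [hpow, Equiv.symm_apply_eq]
  have hsupp : ∀ t : ℕ, (τ ^ t).support.card = (τ'' ^ t).support.card := by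
    intro t
    have a1 := card_fix_add_card_support_h875 (τ ^ t)
    have a2 := card_fix_add_card_support_h875 (τ'' ^ t)
    have := hfix t
    omega
  have hct : τ.cycleType = τ''.cycleType := by
    apply multiset_eq_of_filter_sums_h875
    · intro x hx; exact Equiv.Perm.two_le_of_mem_cycleType hx
    · intro x hx; exact Equiv.Perm.two_le_of_mem_cycleType hx
    · intro t
      rw [← card_support_pow_h875, ← card_support_pow_h875]
      exact hsupp t
  obtain ⟨c, hc⟩ := isConj_iff.mp (Equiv.Perm.isConj_iff_cycleType_eq.mpr hct)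
  refine ⟨c.trans e₀, fun y => ?_⟩
  have h3 : c (τ y) = τ'' (c y) := by
    have := congrArg (fun f : Perm Y => f (c y)) hc
    simpa using this
  simp only [Equiv.trans_apply]
  rw [h3, hτ'', Equiv.apply_symm_apply]

end Conj

/-! ### 3. binary sums (unbundled) -/

section Sum

variable {A B : Type}

lemma sumCongr_pow_apply_h875 (σ : Equiv.Perm A) (τ : Equiv.Perm B) (t : ℕ) (z : A ⊕ B) :
    ((Equiv.sumCongr σ τ : Equiv.Perm (A ⊕ B)) ^ t) z = Sum.map (⇑(σ ^ t)) (⇑(τ ^ t)) z := by
  induction t generalizing z with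
  | zero => cases z <;> rfl
  | succ t ih =>
    rw [pow_succ, Equiv.Perm.mul_apply]
    cases z with
    | inl a =>
      have : (Equiv.sumCongr σ τ : Equiv.Perm (A ⊕ B)) (Sum.inl a) = Sum.inl (σ a) := rfl
      rw [this, ih]
      simp [pow_succ]
    | inr b =>
      have : (Equiv.sumCongr σ τ : Equiv.Perm (A ⊕ B)) (Sum.inr b) = Sum.inr (τ b) := rfl
      rw [this, ih]
      simp [pow_succ]

lemma card_fix_sumCongr_h875 [Finite A] [Finite B] (σ : Equiv.Perm A) (τ : Equiv.Perm B) (t : ℕ) :
    Nat.card {z : A ⊕ B // ((Equiv.sumCongr σ τ : Equiv.Perm (A ⊕ B)) ^ t) z = z} =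
      Nat.card {a : A // (σ ^ t) a = a} + Nat.card {b : B // (τ ^ t) b = b} := by
  have e : {z : A ⊕ B // ((Equiv.sumCongr σ τ : Equiv.Perm (A ⊕ B)) ^ t) z = z} ≃
      {a : A // (σ ^ t) a = a} ⊕ {b : B // (τ ^ t) b = b} := by
    refine (Equiv.subtypeSum (α := A) (β := B)
      (p := fun z => ((Equiv.sumCongr σ τ : Equiv.Perm (A ⊕ B)) ^ t) z = z)).trans
      (Equiv.sumCongr ?_ ?_)
    · refine Equiv.subtypeEquivRight ?_
      intro a
      rw [sumCongr_pow_apply_h875]
      exact Sum.inl_injective.eq_iff
    · refine Equiv.subtypeEquivRight ?_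
      intro b
      rw [sumCongr_pow_apply_h875]
      exact Sum.inr_injective.eq_iff
  rw [Nat.card_congr e, Nat.card_sum]

lemma charpoly_permTensor_sumCongr_h875 {k N : Type} [Field k] [AddCommGroup N] [Module k N]
    [Module.Finite k N] (T : N →ₗ[k] N) [Fintype A] [Fintype B]
    (σ : Equiv.Perm A) (τ : Equiv.Perm B) :
    LinearMap.charpoly (permTensor (⇑(Equiv.sumCongr σ τ : Equiv.Perm (A ⊕ B))) T) =
      LinearMap.charpoly (permTensor (⇑σ) T) * LinearMap.charpoly (permTensor (⇑τ) T) := by
  have key : (Finsupp.sumFinsuppLEquivProdFinsupp k :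
      ((A ⊕ B) →₀ N) ≃ₗ[k] (A →₀ N) × (B →₀ N)).symm.conj
        ((permTensor (⇑σ) T).prodMap (permTensor (⇑τ) T)) =
      permTensor (⇑(Equiv.sumCongr σ τ : Equiv.Perm (A ⊕ B))) T := by
    apply Finsupp.lhom_ext
    intro z n
    rw [LinearEquiv.conj_apply_apply, LinearEquiv.symm_symm, permTensor_single,
      LinearEquiv.symm_apply_eq]
    cases z with
    | inl a =>
      have h1 : (Equiv.sumCongr σ τ : Equiv.Perm (A ⊕ B)) (Sum.inl a) = Sum.inl (σ a) := rfl
      have h2 : (Finsupp.sumFinsuppLEquivProdFinsupp k :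
          ((A ⊕ B) →₀ N) ≃ₗ[k] (A →₀ N) × (B →₀ N)) (Finsupp.single (Sum.inl a) n) =
          (Finsupp.single a n, 0) := by
        apply Prod.ext
        · ext x; simp
        · ext x; simp
      have h3 : (Finsupp.sumFinsuppLEquivProdFinsupp k :
          ((A ⊕ B) →₀ N) ≃ₗ[k] (A →₀ N) × (B →₀ N)) (Finsupp.single (Sum.inl (σ a)) (T n)) =
          (Finsupp.single (σ a) (T n), 0) := by
        apply Prod.ext
        · ext x; simp
        · ext x; simp
      rw [h1, h2, h3, LinearMap.prodMap_apply, permTensor_single, map_zero]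
    | inr b =>
      have h1 : (Equiv.sumCongr σ τ : Equiv.Perm (A ⊕ B)) (Sum.inr b) = Sum.inr (τ b) := rfl
      have h2 : (Finsupp.sumFinsuppLEquivProdFinsupp k :
          ((A ⊕ B) →₀ N) ≃ₗ[k] (A →₀ N) × (B →₀ N)) (Finsupp.single (Sum.inr b) n) =
          (0, Finsupp.single b n) := by
        apply Prod.ext
        · ext x; simp
        · ext x; simp
      have h3 : (Finsupp.sumFinsuppLEquivProdFinsupp k :
          ((A ⊕ B) →₀ N) ≃ₗ[k] (A →₀ N) × (B →₀ N)) (Finsupp.single (Sum.inr (τ b)) (T n)) =
          (0, Finsupp.single (τ b) (T n)) := by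
        apply Prod.ext
        · ext x; simp
        · ext x; simp
      rw [h1, h2, h3, LinearMap.prodMap_apply, permTensor_single, map_zero]
  rw [← key, LinearEquiv.charpoly_conj, LinearMap.charpoly_prodMap]

end Sum

/-! ### 4. permutation sets and lists -/

/-- A finite set with a permutation. -/
structure PSetH875 where
  /-- the carrier -/
  X : Type
  [fin : Fintype X]
  /-- the permutation -/
  σ : Equiv.Perm X

attribute [instance] PSetH875.fin

namespace PSetH875

/-- number of fixed points of `σ ^ t`. -/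
def fix (A : PSetH875) (t : ℕ) : ℕ := Nat.card {x : A.X // (A.σ ^ t) x = x}

/-- the characteristic polynomial of `σ ⊗ T`. -/
def cp {k N : Type} [Field k] [AddCommGroup N] [Module k N] [Module.Finite k N]
    (T : N →ₗ[k] N) (A : PSetH875) : Polynomial k :=
  LinearMap.charpoly (permTensor (⇑A.σ) T)

/-- the empty permutation set. -/
def empty : PSetH875 := ⟨Empty, 1⟩

/-- the disjoint union. -/
def sum (A B : PSetH875) : PSetH875 := ⟨A.X ⊕ B.X, Equiv.sumCongr A.σ B.σ⟩

/-- the disjoint union of a list. -/
def tot : List PSetH875 → PSetH875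
  | [] => empty
  | A :: L => A.sum (tot L)

lemma fix_empty (t : ℕ) : empty.fix t = 0 := by
  have : IsEmpty {x : empty.X // (empty.σ ^ t) x = x} := ⟨fun x => Empty.elim x.1⟩
  exact Nat.card_of_isEmpty

lemma cp_empty {k N : Type} [Field k] [AddCommGroup N] [Module k N] [Module.Finite k N]
    (T : N →ₗ[k] N) : empty.cp T = 1 := by
  have h : LinearMap.charpoly (permTensor (⇑(1 : Equiv.Perm Empty)) T) = 1 := by
    apply Polynomial.eq_one_of_monic_natDegree_zero (LinearMap.charpoly_monic _)
    rw [LinearMap.charpoly_natDegree]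
    exact Module.finrank_zero_of_subsingleton
  exact h

lemma fix_sum (A B : PSetH875) (t : ℕ) : (A.sum B).fix t = A.fix t + B.fix t :=
  card_fix_sumCongr_h875 A.σ B.σ t

lemma cp_sum {k N : Type} [Field k] [AddCommGroup N] [Module k N] [Module.Finite k N]
    (T : N →ₗ[k] N) (A B : PSetH875) : (A.sum B).cp T = A.cp T * B.cp T :=
  charpoly_permTensor_sumCongr_h875 T A.σ B.σ

lemma fix_tot (L : List PSetH875) (t : ℕ) : (tot L).fix t = (L.map (fun A => A.fix t)).sum := by
  induction L with
  | nil => exact fix_empty t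
  | cons A L ih =>
    rw [List.map_cons, List.sum_cons, ← ih]
    exact fix_sum A (tot L) t

lemma cp_tot {k N : Type} [Field k] [AddCommGroup N] [Module k N] [Module.Finite k N]
    (T : N →ₗ[k] N) (L : List PSetH875) : (tot L).cp T = (L.map (fun A => A.cp T)).prod := by
  induction L with
  | nil => exact cp_empty T
  | cons A L ih =>
    rw [List.map_cons, List.prod_cons, ← ih]
    exact cp_sum T A (tot L)

/-- equal fixed-point counts of all powers imply equal characteristic polynomials. -/
lemma cp_eq_of_fix_eq {k N : Type} [Field k] [AddCommGroup N] [Module k N] [Module.Finite k N]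
    (T : N →ₗ[k] N) (A B : PSetH875) (h : ∀ t, A.fix t = B.fix t) : A.cp T = B.cp T := by
  obtain ⟨e, he⟩ := exists_equiv_of_card_fix_h875 A.σ B.σ h
  exact charpoly_permTensor_eq_of_equiv T A.σ B.σ e he

end PSetH875

/-! ### 5. the weighted statement -/

section Weighted

variable {I : Type} [Fintype I]

/-- the list in which `A i` occurs `n i` times. -/
def wlistH875 (A : I → PSetH875) (n : I → ℕ) : List PSetH875 :=
  (Finset.univ : Finset I).toList.flatMap (fun i => List.replicate (n i) (A i))

lemma sum_map_wlist_h875 (A : I → PSetH875) (n : I → ℕ) (f : PSetH875 → ℕ) :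
    ((wlistH875 A n).map f).sum = ∑ i, n i * f (A i) := by
  unfold wlistH875
  rw [← Finset.sum_map_toList]
  generalize (Finset.univ : Finset I).toList = l
  induction l with
  | nil => simp
  | cons i l ih =>
    simp only [List.flatMap_cons, List.map_append, List.sum_append, List.map_replicate,
      List.sum_replicate, smul_eq_mul, List.map_cons, List.sum_cons, ih]

lemma prod_map_wlist_h875 {M : Type} [CommMonoid M] (A : I → PSetH875) (n : I → ℕ)
    (f : PSetH875 → M) :
    ((wlistH875 A n).map f).prod = ∏ i, f (A i) ^ n i := by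
  unfold wlistH875
  rw [← Finset.prod_map_toList]
  generalize (Finset.univ : Finset I).toList = l
  induction l with
  | nil => simp
  | cons i l ih =>
    simp only [List.flatMap_cons, List.map_append, List.prod_append, List.map_replicate,
      List.prod_replicate, List.map_cons, List.prod_cons, ih]

end Weighted

/-- **PERM**: characteristic polynomials of `σ ⊗ T` from fixed-point counts. -/
theorem permCharpoly : PermCharpolyStatement := by
  intro k _ N _ _ _ T I _ X _ σ n n' h
  let A : I → PSetH875 := fun i => ⟨X i, σ i⟩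
  have hfix : ∀ t, (PSetH875.tot (wlistH875 A n)).fix t = (PSetH875.tot (wlistH875 A n')).fix t := by
    intro t
    rw [PSetH875.fix_tot, PSetH875.fix_tot, sum_map_wlist_h875, sum_map_wlist_h875]
    exact h t
  have hcp := PSetH875.cp_eq_of_fix_eq T _ _ hfix
  rw [PSetH875.cp_tot, PSetH875.cp_tot, prod_map_wlist_h875, prod_map_wlist_h875] at hcp
  exact hcp

end Fermat.Agent.S56.Euler.H875

end
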