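import Fermat.Agent.S56.Euler.IndSpec

/-!
# Row S56 / EUL-IND / leaf PERM: `PermCharpolyStatement` (helper962)

Characteristic polynomials of `σ ⊗ T` (`permTensor σ T` on `X →₀ N`) are determined by the
fixed-point counts of all powers of `σ`.

Route: every permutation `σ` of a finite set has a multiset `M` of cycle lengths such that
`charpoly (σ ⊗ T) = ∏_{l ∈ M} cycPoly T l` and `#Fix (σ ^ t) = ∑_{l ∈ M, l ∣ t} l`
(strong induction on the cardinality: split off one orbit, which is a copy of `ZMod l` with the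
shift).  The fixed-point counts determine the weighted multiset, by induction on the divisors.
-/

set_option autoImplicit false

open Polynomial

noncomputable section

namespace Fermat.Agent.S56.Euler.PermH962

open Fermat.Agent.S56.Euler

set_option linter.unusedSectionVars false

variable {k : Type} [Field k] {N : Type} [AddCommGroup N] [Module k N] [Module.Finite k N]

/-- The characteristic polynomial of `shift ⊗ T` on `ZMod l →₀ N` (`1` for `l = 0`). -/
def cycPoly (T : N →ₗ[k] N) (l : ℕ) : k[X] :=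
  if h : l = 0 then 1 else
    haveI : NeZero l := ⟨h⟩
    LinearMap.charpoly (permTensor (fun x : ZMod l => x + 1) T)

lemma cycPoly_eq (T : N →ₗ[k] N) (l : ℕ) [NeZero l] :
    cycPoly T l = LinearMap.charpoly (permTensor (fun x : ZMod l => x + 1) T) := by
  rw [cycPoly, dif_neg (NeZero.ne l)]

/-- The contribution of a cycle of length `l` to the number of fixed points of `σ ^ t`. -/
def fixW (t l : ℕ) : ℕ := if l ∣ t then l else 0

/-- `M` is a multiset of cycle lengths for `σ`. -/
def Good {X : Type} [Finite X] (T : N →ₗ[k] N) (σ : Equiv.Perm X) (M : Multiset ℕ) : Prop :=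
  LinearMap.charpoly (permTensor (⇑σ) T) = (M.map (cycPoly T)).prod ∧
  ∀ t : ℕ, Nat.card {x : X // (σ ^ t) x = x} = (M.map (fixW t)).sum

/-! ### Conjugation -/

lemma permTensor_conj {X Y : Type} (T : N →ₗ[k] N) (e : X ≃ Y) (σ : X → X) (τ : Y → Y)
    (h : ∀ x, e (σ x) = τ (e x)) :
    (Finsupp.domLCongr e : (X →₀ N) ≃ₗ[k] (Y →₀ N)).conj (permTensor σ T) = permTensor τ T := by
  apply Finsupp.lhom_ext
  intro y n
  rw [LinearEquiv.conj_apply_apply, permTensor_single]
  have h1 : (Finsupp.domLCongr e : (X →₀ N) ≃ₗ[k] (Y →₀ N)).symm (Finsupp.single y n) =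
      Finsupp.single (e.symm y) n := by
    rw [LinearEquiv.symm_apply_eq, Finsupp.domLCongr_single, Equiv.apply_symm_apply]
  rw [h1, permTensor_single, Finsupp.domLCongr_single, h, Equiv.apply_symm_apply]

lemma charpoly_permTensor_conj {X Y : Type} [Finite X] [Finite Y] (T : N →ₗ[k] N) (e : X ≃ Y)
    (σ : X → X) (τ : Y → Y) (h : ∀ x, e (σ x) = τ (e x)) :
    LinearMap.charpoly (permTensor τ T) = LinearMap.charpoly (permTensor σ T) := by
  rw [← permTensor_conj T e σ τ h, LinearEquiv.charpoly_conj]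

lemma pow_conj_apply {X Y : Type} (e : X ≃ Y) (σ : Equiv.Perm X) (τ : Equiv.Perm Y)
    (h : ∀ x, e (σ x) = τ (e x)) (t : ℕ) (x : X) : e ((σ ^ t) x) = (τ ^ t) (e x) := by
  induction t generalizing x with
  | zero => simp
  | succ t ih => rw [pow_succ, pow_succ, Equiv.Perm.mul_apply, Equiv.Perm.mul_apply, ih, h]

lemma Good.conj {X Y : Type} [Finite X] [Finite Y] {T : N →ₗ[k] N} (e : X ≃ Y)
    {σ : Equiv.Perm X} {τ : Equiv.Perm Y} (h : ∀ x, e (σ x) = τ (e x)) {M : Multiset ℕ}
    (hM : Good T σ M) : Good T τ M := by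
  refine ⟨?_, fun t => ?_⟩
  · rw [charpoly_permTensor_conj T e (⇑σ) (⇑τ) h]
    exact hM.1
  · rw [← hM.2 t]
    refine (Nat.card_congr (e.subtypeEquiv fun x => ?_)).symm
    rw [← pow_conj_apply e σ τ h t x, e.apply_eq_iff_eq]

/-! ### Disjoint unions -/

lemma permTensor_sum {X Y : Type} (T : N →ₗ[k] N) (σ : X → X) (τ : Y → Y) :
    (Finsupp.sumFinsuppLEquivProdFinsupp k : ((X ⊕ Y) →₀ N) ≃ₗ[k] _).symm.conj
      ((permTensor σ T).prodMap (permTensor τ T)) = permTensor (Sum.map σ τ) T := by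
  have key : ∀ (f : X →₀ N) (g : Y →₀ N),
      (Finsupp.sumFinsuppLEquivProdFinsupp k : ((X ⊕ Y) →₀ N) ≃ₗ[k] _).symm (f, g) =
        Finsupp.mapDomain Sum.inl f + Finsupp.mapDomain Sum.inr g := by
    intro f g
    rw [LinearEquiv.symm_apply_eq]
    refine Prod.ext (Finsupp.ext fun x => ?_) (Finsupp.ext fun y => ?_)
    · rw [Finsupp.fst_sumFinsuppLEquivProdFinsupp, Finsupp.add_apply,
        Finsupp.mapDomain_apply Sum.inl_injective, Finsupp.mapDomain_of_notMem_range]
      · simp
      · simp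
    · rw [Finsupp.snd_sumFinsuppLEquivProdFinsupp, Finsupp.add_apply,
        Finsupp.mapDomain_apply Sum.inr_injective, Finsupp.mapDomain_of_notMem_range]
      · simp
      · simp
  apply Finsupp.lhom_ext
  intro z n
  rw [LinearEquiv.conj_apply_apply, LinearEquiv.symm_symm, permTensor_single]
  rcases z with x | y
  · have h1 : (Finsupp.sumFinsuppLEquivProdFinsupp k : ((X ⊕ Y) →₀ N) ≃ₗ[k] _)
        (Finsupp.single (Sum.inl x) n) = (Finsupp.single x n, 0) := by
      rw [← LinearEquiv.eq_symm_apply, key]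
      simp
    rw [h1, LinearMap.prodMap_apply, permTensor_single, map_zero, key]
    simp
  · have h1 : (Finsupp.sumFinsuppLEquivProdFinsupp k : ((X ⊕ Y) →₀ N) ≃ₗ[k] _)
        (Finsupp.single (Sum.inr y) n) = (0, Finsupp.single y n) := by
      rw [← LinearEquiv.eq_symm_apply, key]
      simp
    rw [h1, LinearMap.prodMap_apply, permTensor_single, map_zero, key]
    simp

lemma charpoly_permTensor_sum {X Y : Type} [Finite X] [Finite Y] (T : N →ₗ[k] N)
    (σ : X → X) (τ : Y → Y) :
    LinearMap.charpoly (permTensor (Sum.map σ τ) T) =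
      LinearMap.charpoly (permTensor σ T) * LinearMap.charpoly (permTensor τ T) := by
  rw [← permTensor_sum T σ τ, LinearEquiv.charpoly_conj, LinearMap.charpoly_prodMap]


/-! ### Fixed points of disjoint unions -/

lemma sumCongr_pow {X Y : Type} (σ : Equiv.Perm X) (τ : Equiv.Perm Y) (t : ℕ) :
    (Equiv.sumCongr σ τ : Equiv.Perm (X ⊕ Y)) ^ t = Equiv.sumCongr (σ ^ t) (τ ^ t) := by
  have := map_pow (Equiv.Perm.sumCongrHom X Y) (σ, τ) t
  simpa using this.symm

lemma card_fix_sumCongr {X Y : Type} [Finite X] [Finite Y] (σ : Equiv.Perm X)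
    (τ : Equiv.Perm Y) (t : ℕ) :
    Nat.card {z : X ⊕ Y // ((Equiv.sumCongr σ τ : Equiv.Perm (X ⊕ Y)) ^ t) z = z} =
      Nat.card {x : X // (σ ^ t) x = x} + Nat.card {y : Y // (τ ^ t) y = y} := by
  rw [sumCongr_pow, ← Nat.card_sum]
  refine Nat.card_congr (Equiv.subtypeSum.trans (Equiv.sumCongr ?_ ?_))
  · exact Equiv.subtypeEquivRight fun x => by simp
  · exact Equiv.subtypeEquivRight fun y => by simp

lemma Good.sum {X Y : Type} [Finite X] [Finite Y] {T : N →ₗ[k] N} {σ : Equiv.Perm X}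
    {τ : Equiv.Perm Y} {M M' : Multiset ℕ} (hσ : Good T σ M) (hτ : Good T τ M') :
    Good T (Equiv.sumCongr σ τ : Equiv.Perm (X ⊕ Y)) (M + M') := by
  refine ⟨?_, fun t => ?_⟩
  · have h0 : (⇑(Equiv.sumCongr σ τ : Equiv.Perm (X ⊕ Y)) : X ⊕ Y → X ⊕ Y) = Sum.map ⇑σ ⇑τ := by
      funext z
      cases z <;> rfl
    rw [h0, charpoly_permTensor_sum, hσ.1, hτ.1, Multiset.map_add, Multiset.prod_add]
  · rw [card_fix_sumCongr, hσ.2 t, hτ.2 t, Multiset.map_add, Multiset.sum_add]

/-! ### The empty set -/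

lemma Good.of_isEmpty {X : Type} [Finite X] [IsEmpty X] (T : N →ₗ[k] N) (σ : Equiv.Perm X) :
    Good T σ 0 := by
  refine ⟨?_, fun t => ?_⟩
  · rw [Multiset.map_zero, Multiset.prod_zero]
    apply Polynomial.eq_one_of_monic_natDegree_zero (LinearMap.charpoly_monic _)
    rw [LinearMap.charpoly_natDegree]
    exact Module.finrank_zero_of_subsingleton
  · rw [Multiset.map_zero, Multiset.sum_zero]
    exact Nat.card_of_isEmpty

/-! ### The standard cycle `ZMod l` -/

lemma addRight_pow_apply (l : ℕ) (t : ℕ) (x : ZMod l) :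
    ((Equiv.addRight (1 : ZMod l)) ^ t) x = x + (t : ZMod l) := by
  induction t generalizing x with
  | zero => simp
  | succ t ih =>
    rw [pow_succ, Equiv.Perm.mul_apply, ih]
    simp [add_comm, add_left_comm]

lemma Good.shift (T : N →ₗ[k] N) (l : ℕ) [NeZero l] :
    Good T (Equiv.addRight (1 : ZMod l)) {l} := by
  refine ⟨?_, fun t => ?_⟩
  · rw [Multiset.map_singleton, Multiset.prod_singleton, cycPoly_eq]
    rfl
  · rw [Multiset.map_singleton, Multiset.sum_singleton, fixW]
    split_ifs with h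
    · have h0 : ((t : ℕ) : ZMod l) = 0 := (ZMod.natCast_eq_zero_iff t l).mpr h
      have : ∀ x : ZMod l, ((Equiv.addRight (1 : ZMod l)) ^ t) x = x := fun x => by
        rw [addRight_pow_apply, h0, add_zero]
      rw [Nat.card_congr (Equiv.subtypeUnivEquiv this), Nat.card_zmod]
    · have : IsEmpty {x : ZMod l // ((Equiv.addRight (1 : ZMod l)) ^ t) x = x} := by
        refine ⟨fun ⟨x, hx⟩ => h ?_⟩
        rw [addRight_pow_apply] at hx
        exact (ZMod.natCast_eq_zero_iff t l).mp (by simpa using hx)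
      exact Nat.card_of_isEmpty



/-! ### Existence of a multiset of cycle lengths -/

lemma orbit_inv {X : Type} (σ : Equiv.Perm X) (x₀ x : X) :
    σ x ∈ MulAction.orbit (Subgroup.zpowers σ) x₀ ↔
      x ∈ MulAction.orbit (Subgroup.zpowers σ) x₀ := by
  have : σ x = (⟨σ, Subgroup.mem_zpowers σ⟩ : Subgroup.zpowers σ) • x := rfl
  rw [this, ← MulAction.orbit_eq_iff, MulAction.orbit_smul, MulAction.orbit_eq_iff]

lemma orbit_shift {X : Type} (σ : Equiv.Perm X) (x₀ : X)
    (j : ZMod (Function.minimalPeriod (σ • ·) x₀)) :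
    (MulAction.orbitZPowersEquiv σ x₀).symm (j + 1) =
      (σ.subtypePerm (orbit_inv σ x₀)) ((MulAction.orbitZPowersEquiv σ x₀).symm j) := by
  have hj : j = (((ZMod.cast j : ℤ)) : ZMod (Function.minimalPeriod (σ • ·) x₀)) :=
    (ZMod.intCast_zmod_cast j).symm
  have hj1 : j + 1 = (((1 + ZMod.cast j : ℤ)) : ZMod (Function.minimalPeriod (σ • ·) x₀)) := by
    simp [add_comm]
  rw [hj1]
  conv_rhs => rw [hj]
  rw [MulAction.orbitZPowersEquiv_symm_apply', MulAction.orbitZPowersEquiv_symm_apply']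
  apply Subtype.ext
  rw [Equiv.Perm.subtypePerm_apply]
  simp only [MulAction.orbit.coe_smul]
  rw [zpow_one_add, mul_smul]
  rfl

lemma Good.of_equiv_zmod {Y : Type} [Finite Y] (T : N →ₗ[k] N) (τ : Equiv.Perm Y) (l : ℕ)
    [NeZero l] (e : Y ≃ ZMod l) (h : ∀ j, e.symm (j + 1) = τ (e.symm j)) :
    Good T τ {l} :=
  Good.conj e.symm (σ := Equiv.addRight (1 : ZMod l)) h (Good.shift T l)

lemma exists_good {X : Type} [Finite X] (T : N →ₗ[k] N) (σ : Equiv.Perm X) :
    ∃ M : Multiset ℕ, 0 ∉ M ∧ Good T σ M := by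
  classical
  induction' h : Nat.card X using Nat.strong_induction_on with n ih generalizing X
  rcases isEmpty_or_nonempty X with hX | ⟨⟨x₀⟩⟩
  · exact ⟨0, Multiset.notMem_zero 0, Good.of_isEmpty T σ⟩
  · have hinv' : ∀ x, ¬ σ x ∈ MulAction.orbit (Subgroup.zpowers σ) x₀ ↔
        ¬ x ∈ MulAction.orbit (Subgroup.zpowers σ) x₀ := fun x => not_congr (orbit_inv σ x₀ x)
    have hne : NeZero (Function.minimalPeriod (σ • ·) x₀) := MulAction.minimalPeriod_pos σ x₀
    have gO : Good T (σ.subtypePerm (orbit_inv σ x₀)) {Function.minimalPeriod (σ • ·) x₀} :=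
      Good.of_equiv_zmod T _ _ (MulAction.orbitZPowersEquiv σ x₀) (orbit_shift σ x₀)
    have hlt : Nat.card {x // ¬ x ∈ MulAction.orbit (Subgroup.zpowers σ) x₀} < n := by
      rw [← h]
      have := Nat.card_congr (Equiv.sumCompl (· ∈ MulAction.orbit (Subgroup.zpowers σ) x₀))
      rw [Nat.card_sum] at this
      have hpos : 0 < Nat.card {x // x ∈ MulAction.orbit (Subgroup.zpowers σ) x₀} :=
        Nat.card_pos_iff.mpr ⟨⟨⟨x₀, MulAction.mem_orbit_self x₀⟩⟩, inferInstance⟩
      omega
    obtain ⟨M', h0, hM'⟩ := ih _ hlt (σ.subtypePerm hinv') rfl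
    refine ⟨{Function.minimalPeriod (σ • ·) x₀} + M', ?_,
      Good.conj (Equiv.sumCompl (· ∈ MulAction.orbit (Subgroup.zpowers σ) x₀)) ?_ (gO.sum hM')⟩
    · rw [Multiset.mem_add, Multiset.mem_singleton]
      rintro (h1 | h1)
      · exact hne.out h1.symm
      · exact h0 h1
    · rintro (x | x) <;> rfl

/-! ### Fixed-point counts determine the cycle lengths -/

lemma sum_fixW_eq (M : Multiset ℕ) (t : ℕ) (ht : t ≠ 0) :
    (M.map (fixW t)).sum = ∑ d ∈ t.divisors, d * M.count d := by
  induction M using Multiset.induction with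
  | empty => simp
  | cons a M ih =>
    rw [Multiset.map_cons, Multiset.sum_cons, ih]
    simp only [Multiset.count_cons, mul_add, Finset.sum_add_distrib]
    rw [add_comm]
    congr 1
    simp only [mul_ite, mul_one, mul_zero]
    rw [Finset.sum_ite_eq' t.divisors a (fun d => d), fixW]
    simp [Nat.mem_divisors, ht]

lemma count_eq_of_fixW (M M' : Multiset ℕ)
    (h : ∀ t, t ≠ 0 → (M.map (fixW t)).sum = (M'.map (fixW t)).sum) (l : ℕ) (hl : l ≠ 0) :
    M.count l = M'.count l := by
  induction l using Nat.strong_induction_on with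
  | _ l ih =>
    have h1 := h l hl
    rw [sum_fixW_eq M l hl, sum_fixW_eq M' l hl, ← Nat.cons_self_properDivisors hl,
      Finset.sum_cons, Finset.sum_cons] at h1
    have h2 : ∑ d ∈ l.properDivisors, d * M.count d = ∑ d ∈ l.properDivisors, d * M'.count d := by
      refine Finset.sum_congr rfl fun d hd => ?_
      rw [Nat.mem_properDivisors] at hd
      have hd0 : d ≠ 0 := by
        rintro rfl
        exact hl (Nat.eq_zero_of_zero_dvd hd.1)
      rw [ih d hd.2 hd0]
    rw [h2] at h1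
    exact Nat.eq_of_mul_eq_mul_left (Nat.pos_of_ne_zero hl) (Nat.add_right_cancel h1)

lemma multiset_eq_of_fixW (M M' : Multiset ℕ) (h0 : 0 ∉ M) (h0' : 0 ∉ M')
    (h : ∀ t, t ≠ 0 → (M.map (fixW t)).sum = (M'.map (fixW t)).sum) : M = M' := by
  ext l
  rcases eq_or_ne l 0 with rfl | hl
  · rw [Multiset.count_eq_zero_of_notMem h0, Multiset.count_eq_zero_of_notMem h0']
  · exact count_eq_of_fixW M M' h l hl


/-! ### The statement -/

/-- (PERM) characteristic polynomials of `σ ⊗ T` from fixed-point counts. -/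
theorem permCharpoly : PermCharpolyStatement := by
  intro k _ N _ _ _ T I _ X _ σ n n' h
  choose M hM0 hM using fun i => exists_good T (σ i)
  have hsum : ∀ (m : I → ℕ) (t : ℕ),
      ((∑ i, m i • M i).map (fixW t)).sum =
        ∑ i, m i * Nat.card {x : X i // (σ i ^ t) x = x} := by
    intro m t
    rw [← Multiset.coe_mapAddMonoidHom, map_sum, ← Multiset.coe_sumAddMonoidHom, map_sum]
    refine Finset.sum_congr rfl fun i _ => ?_
    rw [map_nsmul, map_nsmul, Multiset.coe_sumAddMonoidHom, Multiset.coe_mapAddMonoidHom,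
      (hM i).2 t, smul_eq_mul]
  have hprod : ∀ m : I → ℕ,
      ((∑ i, m i • M i).map (cycPoly T)).prod =
        ∏ i, LinearMap.charpoly (permTensor (⇑(σ i)) T) ^ m i := by
    intro m
    rw [← Multiset.coe_mapAddMonoidHom, map_sum, Multiset.prod_sum]
    refine Finset.prod_congr rfl fun i _ => ?_
    rw [map_nsmul, Multiset.prod_nsmul, Multiset.coe_mapAddMonoidHom, (hM i).1]
  have hnot : ∀ m : I → ℕ, 0 ∉ ∑ i, m i • M i := by
    intro m h0
    rw [Multiset.mem_sum] at h0
    obtain ⟨i, -, hi⟩ := h0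
    exact hM0 i (Multiset.mem_of_mem_nsmul hi)
  have key : ∑ i, n i • M i = ∑ i, n' i • M i := by
    refine multiset_eq_of_fixW _ _ (hnot n) (hnot n') fun t _ => ?_
    rw [hsum n t, hsum n' t]
    exact h t
  rw [← hprod n, ← hprod n', key]

end Fermat.Agent.S56.Euler.PermH962

end
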